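import Fermat.Agent.S48.ModL.EC.Teich
import Fermat.Agent.S48.Eis1.Main
import Fermat.Agent.S48.Eis1.Alg
import Fermat.Agent.S48.Forms.ToGamma0
import Fermat.Agent.S48.Forms.FinDim

/-!
# S48 / MODL / EC / EisOmega  (WP [EC-EISOMEGA]): a weight one Eisenstein series with character `ω⁻¹`,
integral coefficients, and `≡` a nonzero constant modulo `ker φ`

Uses ONLY the statements of helper63's `S48/Eis1/{Main,Alg}.lean` :
`eis1_slash` (T1), `exists_modularForm_eis1` (T2), `qCoeff_eis1` (T3), `Eis1.exists_coeff_OO`,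
`Eis1.exists_ratio_OO`, `Eis1.c1_ne_zero`.

Construction: `g = (c1 ℓ 1)⁻¹ • ∑_{a : (ZMod ℓ)ˣ} ω a • E_a`, `⇑E_a = eis1 ℓ a.val`  (`¬ ℓ ∣ a.val`).
* character: `eis1 ℓ a ∣[1] γ = eis1 ℓ (a * γ 1 1)`; `eis1 ℓ a` only depends on `a` mod `ℓ`
  (`eis1`, `zet` are explicit: `zet ℓ (a + ℓ * t) = zet ℓ a`, or use `eis1_eq_smul_Zf` + `Zf_congr`);
  reindex the sum by `a ↦ a * d⁻¹`, `d = γ 1 1` (a unit mod `ℓ`: `isUnit_lowerRight_of_mem_Gamma0`).
* coefficients (`qCoeff` is additive on modular forms: `ModularForm.qExpansion_add/smul`, pattern `coeffL`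
  in `Forms/FinDim.lean`, or a `Finset.sum` induction):
  `qCoeff g n = ∑_a ω a * (c1 ℓ a / c1 ℓ 1) * (coeff1 ℓ a n / c1 ℓ a) = ∑_a w a * u_a * x_{a,n}`
  with `u_a` from `exists_ratio_OO (a := 1) (d := a)`, `φ u_a * a = 1`, and `x_{a,n}` from `exists_coeff_OO`,
  `φ x_{a,n} = if n = 0 then 1 else 0`.  So `φ (b n) = ∑_a a * a⁻¹ * [n = 0] = (ℓ - 1) [n = 0] = - [n = 0]`.
-/

set_option autoImplicit false

open UpperHalfPlane hiding I
open CongruenceSubgroup ModularForm ModularFormClass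
open scoped Manifold MatrixGroups ModularForm

namespace Fermat.Agent.S48.ModL.EC

/-- the `n`-th coefficient as a linear functional on modular forms. -/
noncomputable def coeffLM (N : ℕ) [NeZero N] (k : ℤ) (n : ℕ) : ModularForm (Gamma1 N) k →ₗ[ℂ] ℂ where
  toFun f := qCoeff f n
  map_add' f g := by
    unfold qCoeff
    rw [FunLike.coe_add, ModularForm.qExpansion_add one_pos (one_mem_strictPeriods_Gamma1 N) f g,
      map_add]
  map_smul' c f := by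
    unfold qCoeff
    rw [FunLike.coe_smul, ModularForm.qExpansion_smul one_pos (one_mem_strictPeriods_Gamma1 N) c f]
    simp

theorem coeffLM_apply {N : ℕ} [NeZero N] {k : ℤ} (n : ℕ) (f : ModularForm (Gamma1 N) k) :
    coeffLM N k n f = qCoeff f n := rfl

theorem eis1_congr {N : ℕ} [NeZero N] {a b : ℤ} (ha : ¬ (N : ℤ) ∣ a) (h : (N : ℤ) ∣ a - b) :
    eis1 N a = eis1 N b := by
  have hb : ¬ (N : ℤ) ∣ b := by
    intro hb
    apply ha
    have := dvd_add h hb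
    rwa [sub_add_cancel] at this
  rw [eis1_eq_smul_Zf ha, eis1_eq_smul_Zf hb, Eis1.Zf_congr (N := N) (r := 0) (r' := 0) (by simp) h]

theorem coe_sum_modularForm {N : ℕ} {k : ℤ} {ι : Type*} (s : Finset ι)
    (f : ι → ModularForm (Gamma1 N) k) :
    (⇑(∑ i ∈ s, f i) : ℍ → ℂ) = ∑ i ∈ s, (⇑(f i) : ℍ → ℂ) :=
  map_sum (FunLike.coeAddMonoidHom (ModularForm (Gamma1 N) k) ℍ ℂ) f s

theorem exists_eisOmega (ℓ : ℕ) (hℓ : ℓ.Prime) (hℓ2 : ℓ ≠ 2) {k : Type} [Field k] (φ : OO →+* k)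
    (hφ : (ℓ : k) = 0) (ω : DirichletCharacter ℂ ℓ) (w : ZMod ℓ → OO)
    (hw : ∀ d, (w d : ℂ) = ω d) (hwφ : ∀ d : ZMod ℓ, φ (w d) = (d.val : k)) :
    ∃ (g : ModularForm (Gamma1 ℓ) 1) (b : ℕ → OO), HasChar ℓ 1 ω⁻¹ g ∧
      (∀ n, qCoeff g n = b n) ∧ φ (b 0) ≠ 0 ∧ ∀ n, n ≠ 0 → φ (b n) = 0 := by
  have : NeZero ℓ := ⟨hℓ.ne_zero⟩
  have : Fact ℓ.Prime := ⟨hℓ⟩
  set av : (ZMod ℓ)ˣ → ℤ := fun a => (((a : ZMod ℓ).val : ℕ) : ℤ) with hav_def
  have hcast : ∀ a, ((av a : ℤ) : ZMod ℓ) = a := by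
    intro a
    simp [av]
  have hav : ∀ a, ¬ (ℓ : ℤ) ∣ av a := by
    intro a h
    have h0 := (ZMod.intCast_zmod_eq_zero_iff_dvd (av a) ℓ).2 h
    rw [hcast] at h0
    exact a.ne_zero h0
  have h1 : ¬ (ℓ : ℤ) ∣ 1 := by
    intro h
    have h2 := Int.eq_one_of_dvd_one (by positivity) h
    have h3 : ℓ = 1 := by exact_mod_cast h2
    exact hℓ.one_lt.ne' h3
  choose E hE using fun a => exists_modularForm_eis1 (N := ℓ) (hav a)
  choose u hu huφ using fun a => Eis1.exists_ratio_OO hℓ hℓ2 (a := 1) (d := av a) h1 (hav a)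
  choose x hx hxφ using fun a n => Eis1.exists_coeff_OO hℓ hℓ2 (hav a) n
  refine ⟨(Eis1.c1 ℓ 1)⁻¹ • ∑ a : (ZMod ℓ)ˣ, ω (a : ZMod ℓ) • E a,
    fun n => ∑ a : (ZMod ℓ)ˣ, w (a : ZMod ℓ) * u a * x a n, ?_, ?_, ?_, ?_⟩
  · intro γ hγ
    have hcoe : (⇑((Eis1.c1 ℓ 1)⁻¹ • ∑ a : (ZMod ℓ)ˣ, ω (a : ZMod ℓ) • E a) : ℍ → ℂ) =
        (Eis1.c1 ℓ 1)⁻¹ • ∑ a : (ZMod ℓ)ˣ, ω (a : ZMod ℓ) • eis1 ℓ (av a) := by
      rw [FunLike.coe_smul, coe_sum_modularForm]
      congr 1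
      refine Finset.sum_congr rfl fun a _ => ?_
      rw [FunLike.coe_smul, hE]
    rw [hcoe, ModularForm.SL_smul_slash, SlashAction.sum_slash, smul_comm]
    congr 1
    set d : (ZMod ℓ)ˣ := (isUnit_lowerRight_of_mem_Gamma0 hγ).unit with hd
    have hdc : (d : ZMod ℓ) = ((γ 1 1 : ℤ) : ZMod ℓ) := rfl
    rw [← hdc, Finset.smul_sum]
    refine Fintype.sum_equiv (Equiv.mulRight d) _ _ fun a => ?_
    rw [ModularForm.SL_smul_slash, eis1_slash (hav a) γ hγ, Equiv.coe_mulRight, smul_smul]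
    congr 1
    · rw [MulChar.inv_apply_eq_inv', Units.val_mul, map_mul, mul_comm, mul_assoc,
        mul_inv_cancel₀, mul_one]
      exact (IsUnit.map ω d.isUnit).ne_zero
    · refine eis1_congr (not_dvd_mul_of_Gamma0 (hav a) hγ) ?_
      rw [← ZMod.intCast_zmod_eq_zero_iff_dvd]
      push_cast
      rw [hcast, hcast, ← hdc, Units.val_mul, sub_self]
  · intro n
    rw [← coeffLM_apply, map_smul, map_sum]
    simp only [map_smul, coeffLM_apply, hE, qCoeff_eis1 (hav _), smul_eq_mul]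
    push_cast
    rw [Finset.mul_sum]
    refine Finset.sum_congr rfl fun a _ => ?_
    rw [hw, hu, hx, one_mul]
    have hc1 := Eis1.c1_ne_zero hℓ hℓ2 h1
    have hc2 := Eis1.c1_ne_zero hℓ hℓ2 (hav a)
    field_simp
  · have hterm : ∀ a : (ZMod ℓ)ˣ, φ (w (a : ZMod ℓ) * u a * x a 0) = 1 := by
      intro a
      rw [map_mul, map_mul, hwφ, hxφ a 0 k φ hφ, if_pos rfl, mul_one, mul_comm]
      have := huφ a k φ hφ
      simpa [av] using this
    simp only [map_sum, hterm, Finset.sum_const, Finset.card_univ, ZMod.card_units, nsmul_eq_mul,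
      mul_one]
    rw [Nat.cast_sub hℓ.one_le, hφ]
    simp
  · intro n hn
    simp only [map_sum, map_mul, hxφ _ n k φ hφ, if_neg hn, mul_zero, Finset.sum_const_zero]

end Fermat.Agent.S48.ModL.EC
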