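import Fermat.Agent.S48.ModL.EC.Defs
import Fermat.Agent.S48.Forms.ToGamma0

/-!
# S48 / MODL / EC / Form  (WP [EC-FORM]): the product of a weight one cusp form and a weight one
modular form, at a common level, with characters

* `HasChar.changeLevel`: `Γ₀(M) ≤ Γ₀(N)`, `γ 1 1` is a unit mod `M`
  (`isUnit_lowerRight_of_mem_Gamma0`), `DirichletCharacter.changeLevel_eq_cast_of_dvd`.
* the cusp form: `toFun = ⇑f * ⇑g`; invariance under `Γ₁(M)` from `HasChar.mul` (`Forms/ToGamma0.lean`) at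
  `γ 1 1 = 1`; `holo'` = product; `zero_at_cusps'`: `Subgroup.IsArithmetic.isCusp_iff_isCusp_SL2Z`,
  `OnePoint.isZeroAt_iff_forall_SL2Z`, `ModularForm.mul_slash_SL2`, (zero at `i∞`) * (bounded at `i∞`);
  patterns: `exists_Gamma0_mul` in `Forms/ToGamma0.lean`, `exists_modularForm_eis1` in `Eis1/Main.lean`.
* coefficients: `qExpansion_mul` (function version, Mathlib `NumberTheory/ModularForms/QExpansion.lean`,
  with `ModularFormClass.analyticAt_cuspFunction_zero f one_pos (one_mem_strictPeriods_Gamma1 _)`),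
  `PowerSeries.coeff_mul`.
-/

set_option autoImplicit false

open UpperHalfPlane hiding I
open CongruenceSubgroup ModularForm ModularFormClass
open scoped Manifold MatrixGroups ModularForm

namespace Fermat.Agent.S48.ModL.EC

theorem intCast_eq_of_dvd {N M : ℕ} (hNM : N ∣ M) {a b : ℤ} (h : (a : ZMod M) = b) :
    (a : ZMod N) = b := by
  rw [ZMod.intCast_eq_intCast_iff_dvd_sub] at h ⊢
  exact (Int.natCast_dvd_natCast.2 hNM).trans h

theorem Gamma0_le_Gamma0_of_dvd {N M : ℕ} (hNM : N ∣ M) : Gamma0 M ≤ Gamma0 N := by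
  intro γ hγ
  rw [Gamma0_mem] at hγ ⊢
  have := intCast_eq_of_dvd hNM (a := γ 1 0) (b := 0) (by simpa using hγ)
  simpa using this

theorem Gamma1_le_Gamma1_of_dvd {N M : ℕ} (hNM : N ∣ M) : Gamma1 M ≤ Gamma1 N := by
  intro γ hγ
  rw [Gamma1_mem] at hγ ⊢
  refine ⟨?_, ?_, ?_⟩
  · have := intCast_eq_of_dvd hNM (a := γ 0 0) (b := 1) (by simpa using hγ.1)
    simpa using this
  · have := intCast_eq_of_dvd hNM (a := γ 1 1) (b := 1) (by simpa using hγ.2.1)
    simpa using this
  · have := intCast_eq_of_dvd hNM (a := γ 1 0) (b := 0) (by simpa using hγ.2.2)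
    simpa using this

theorem HasChar.changeLevel {N M : ℕ} (hNM : N ∣ M) {k : ℤ} {χ : DirichletCharacter ℂ N}
    {F : ℍ → ℂ} (h : HasChar N k χ F) : HasChar M k (DirichletCharacter.changeLevel hNM χ) F := by
  intro γ hγ
  rw [h γ (Gamma0_le_Gamma0_of_dvd hNM hγ)]
  congr 1
  have hu := isUnit_lowerRight_of_mem_Gamma0 hγ
  have := DirichletCharacter.changeLevel_eq_cast_of_dvd χ hNM hu.unit
  rw [IsUnit.unit_spec, ZMod.cast_intCast hNM] at this
  exact this.symm

theorem exists_mul_form {N L M : ℕ} [NeZero N] [NeZero L] [NeZero M] (hN : N ∣ M) (hL : L ∣ M)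
    (ε : DirichletCharacter ℂ N) (χ : DirichletCharacter ℂ L)
    (f : CuspForm (Gamma1 N) 1) (g : ModularForm (Gamma1 L) 1)
    (hf : HasChar N 1 ε f) (hg : HasChar L 1 χ g) :
    ∃ F : CuspForm (Gamma1 M) 2,
      HasChar M 2 (DirichletCharacter.changeLevel hN ε * DirichletCharacter.changeLevel hL χ) F ∧
      ∀ n, qCoeff F n = ∑ ij ∈ Finset.HasAntidiagonal.antidiagonal n, qCoeff f ij.1 * qCoeff g ij.2 := by
  have hchar : HasChar M 2
      (DirichletCharacter.changeLevel hN ε * DirichletCharacter.changeLevel hL χ) (⇑f * ⇑g) := by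
    have := HasChar.mul (HasChar.changeLevel hN hf) (HasChar.changeLevel hL hg)
    rwa [show (1 : ℤ) + 1 = 2 by norm_num] at this
  refine ⟨{ toFun := ⇑f * ⇑g
            slash_action_eq' := ?_
            holo' := f.holo'.mul g.holo'
            zero_at_cusps' := ?_ }, hchar, fun n => ?_⟩
  · rintro _ ⟨γ, hγ, rfl⟩
    have h1 := hchar γ (Gamma1_in_Gamma0 M hγ)
    have h2 : ((γ 1 1 : ℤ) : ZMod M) = 1 := ((Gamma1_mem M γ).1 hγ).2.1
    rw [h2, map_one, one_smul] at h1
    exact h1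
  · intro c hc
    have h1 := f.zero_at_cusps' (hc.mono (Subgroup.map_mono (Gamma1_le_Gamma1_of_dvd hN)))
    have h2 := g.bdd_at_cusps' (hc.mono (Subgroup.map_mono (Gamma1_le_Gamma1_of_dvd hL)))
    have hc' := isCusp_SL2Z_of_Gamma1 hc
    rw [OnePoint.isZeroAt_iff_forall_SL2Z hc'] at h1 ⊢
    rw [OnePoint.isBoundedAt_iff_forall_SL2Z hc'] at h2
    intro δ hδ
    have := (h1 δ hδ).mul_boundedAtFilter (h2 δ hδ)
    rw [← ModularForm.mul_slash_SL2, show (1 : ℤ) + 1 = 2 by norm_num] at this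
    exact this
  · show (qExpansion 1 (⇑f * ⇑g : ℍ → ℂ)).coeff n = _
    rw [qExpansion_mul
      (ModularFormClass.analyticAt_cuspFunction_zero f one_pos (one_mem_strictPeriods_Gamma1 N))
      (ModularFormClass.analyticAt_cuspFunction_zero g one_pos (one_mem_strictPeriods_Gamma1 L)),
      PowerSeries.coeff_mul]
    rfl

end Fermat.Agent.S48.ModL.EC
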