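import Fermat.Agent.S48.ModL.EC.Per
import Fermat.Agent.S21.InjCore

/-!
# S48 / MODL / EC / Inj  (WP [EC-INJ]): a cusp form all of whose periods vanish is zero

Port of `S21.deriv_eq_zero_of_re_invariant` (`Fermat/Agent/S21/InjCore.lean`, 120 lines) with
`Gamma0 N` replaced by `Gamma h` (normal, finite index: `SL(2, ℤ) ⧸ Gamma h` is finite;
`conj_T_pow_mem_Gamma0` becomes `(Gamma_normal h).conj_mem`).  Apply the ported statement to
`Φ = prim G`, `φ = G` (`hinv` with `c = 0` by `prim_smul_sub` and `hper`, `hlim = exists_tendsto_prim`).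
-/

set_option autoImplicit false

open UpperHalfPlane hiding I
open Complex Function Filter CongruenceSubgroup ModularForm ModularFormClass
open scoped Manifold MatrixGroups ModularForm Topology

namespace Fermat.Agent.S48.ModL.EC

theorem conj_T_pow_mem_Gamma_ec (N : ℕ) (δ : SL(2, ℤ)) :
    δ * ModularGroup.T ^ (N : ℤ) * δ⁻¹ ∈ CongruenceSubgroup.Gamma N :=
  (Gamma_normal N).conj_mem _ (ModularGroup_T_pow_mem_Gamma (N : ℤ) (N : ℤ) dvd_rfl) δ

/-- Periodicity of `Φ ∘ δ`. -/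
theorem periodic_of_inv_Gamma (N : ℕ) (Φ : ℍ → ℂ)
    (hinv : ∀ γ ∈ CongruenceSubgroup.Gamma N, ∃ c : ℂ, ∀ z : ℍ, Φ (γ • z) - Φ z = c)
    (hlim : ∀ δ : SL(2, ℤ), ∃ L : ℂ, Tendsto (fun w : ℍ => Φ (δ • w)) atImInfty (𝓝 L))
    (δ : SL(2, ℤ)) (z : ℍ) : Φ (δ • ((N : ℝ) +ᵥ z)) = Φ (δ • z) := by
  obtain ⟨c, hc⟩ := hinv _ (conj_T_pow_mem_Gamma_ec N δ)
  obtain ⟨L, hL⟩ := hlim δ
  have key : ∀ w : ℍ, Φ (δ • ((N : ℝ) +ᵥ w)) - Φ (δ • w) = c := by
    intro w
    have := hc (δ • w)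
    rw [← mul_smul, inv_mul_cancel_right, mul_smul, modular_T_zpow_smul] at this
    simpa using this
  have h1 : Tendsto (fun w : ℍ => Φ (δ • ((N : ℝ) +ᵥ w)) - Φ (δ • w)) atImInfty (𝓝 (L - L)) :=
    (hL.comp (S21.tendsto_vadd_atImInfty (N : ℝ))).sub hL
  have h2 : Tendsto (fun w : ℍ => Φ (δ • ((N : ℝ) +ᵥ w)) - Φ (δ • w)) atImInfty (𝓝 c) := by
    simp only [key]; exact tendsto_const_nhds
  have hc0 : c = 0 := by
    have := tendsto_nhds_unique h2 h1
    simpa using this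
  have := key z
  rw [hc0, sub_eq_zero] at this
  exact this

open Function.Periodic in
/-- the port of `S21.deriv_eq_zero_of_re_invariant`. -/
theorem deriv_eq_zero_of_re_invariant_Gamma_aux (N : ℕ) [NeZero N] (Φ φ : ℍ → ℂ)
    (hder : ∀ τ : ℍ, HasDerivAt (Φ ∘ ofComplex) (φ τ) ↑τ)
    (hinv : ∀ γ ∈ CongruenceSubgroup.Gamma N, ∃ c : ℝ, ∀ z : ℍ, Φ (γ • z) - Φ z = c * Complex.I)
    (hlim : ∀ δ : SL(2, ℤ), ∃ L : ℂ, Tendsto (fun w : ℍ => Φ (δ • w)) atImInfty (𝓝 L)) :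
    ∀ τ, φ τ = 0 := by
  have hN : (0 : ℝ) < N := Nat.cast_pos.mpr (NeZero.pos N)
  have hΦ : MDifferentiable 𝓘(ℂ) 𝓘(ℂ) Φ :=
    fun τ => mdifferentiableAt_iff.mpr (hder τ).differentiableAt
  have hinv' : ∀ γ ∈ CongruenceSubgroup.Gamma N, ∃ c : ℂ, ∀ z : ℍ, Φ (γ • z) - Φ z = c := by
    intro γ hγ
    obtain ⟨c, hc⟩ := hinv γ hγ
    exact ⟨_, hc⟩
  let e : SL(2, ℤ) → ℂ → ℂ := fun δ z => exp (Φ (δ • ofComplex z))
  have hper : ∀ δ, Periodic (e δ) ((N : ℝ) : ℂ) := by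
    intro δ w
    by_cases hw : 0 < Complex.im w
    · have hw' : 0 < Complex.im (w + ((N : ℝ) : ℂ)) := by simpa using hw
      simp only [e, ofComplex_apply_of_im_pos hw', ofComplex_apply_of_im_pos hw]
      have := periodic_of_inv_Gamma N Φ hinv' hlim δ ⟨w, hw⟩
      rw [← this]
      congr 3
      ext
      simp [add_comm]
    · have hw' : Complex.im (w + ((N : ℝ) : ℂ)) ≤ 0 := by simpa using hw
      simp only [e, ofComplex_apply_of_im_nonpos hw', ofComplex_apply_of_im_nonpos (not_lt.mp hw)]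
  have hdiff : ∀ δ (z : ℂ), 0 < z.im → DifferentiableAt ℂ (e δ) z := by
    intro δ z hz
    have h1 := mdifferentiableAt_iff.mp ((S21.mdiff_comp_smul hΦ δ) ⟨z, hz⟩)
    exact h1.cexp
  have hbdd : ∀ δ, BoundedAtFilter (comap Complex.im atTop) (e δ) := by
    intro δ
    obtain ⟨L, hL⟩ := hlim δ
    have h1 : Tendsto (fun z : ℂ => Φ (δ • ofComplex z)) (comap Complex.im atTop) (𝓝 L) :=
      hL.comp tendsto_comap_im_ofComplex
    have h2 : Tendsto (e δ) (comap Complex.im atTop) (𝓝 (exp L)) :=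
      (continuous_exp.tendsto L).comp h1
    exact h2.isBigO_one ℝ
  let W : SL(2, ℤ) → ℂ → ℂ := fun δ => cuspFunction N (e δ)
  have hWeq : ∀ δ (z : ℍ), W δ (qParam N z) = exp (Φ (δ • z)) := by
    intro δ z
    have := eq_cuspFunction hN.ne' (hper δ) z
    simpa [W, e] using this
  have hWdiff : ∀ δ, DifferentiableOn ℂ (W δ) (Metric.ball 0 1) := by
    intro δ q hq
    apply DifferentiableAt.differentiableWithinAt
    rcases eq_or_ne q 0 with rfl | hq0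
    · refine differentiableAt_cuspFunction_zero hN (hper δ) ?_ (hbdd δ)
      have : ∀ᶠ z : ℂ in comap Complex.im atTop, 0 < z.im :=
        (tendsto_comap (f := Complex.im) (x := atTop)).eventually (eventually_gt_atTop 0)
      filter_upwards [this] with z hz using hdiff δ z hz
    · have hpos := im_invQParam_pos_of_norm_lt_one hN (mem_ball_zero_iff.mp hq) hq0
      have := differentiableAt_cuspFunction hN.ne' (hper δ) (hdiff δ _ hpos)
      rwa [qParam_right_inv hN.ne' hq0] at this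
  have hnorm : ∀ γ ∈ CongruenceSubgroup.Gamma N, ∀ (δ : SL(2, ℤ)) (z : ℍ),
      ‖exp (Φ ((γ * δ) • z))‖ = ‖exp (Φ (δ • z))‖ := by
    intro γ hγ δ z
    obtain ⟨c, hc⟩ := hinv γ hγ
    have := hc (δ • z)
    rw [mul_smul, Complex.norm_exp, Complex.norm_exp]
    have h2 : Φ (γ • δ • z) = Φ (δ • z) + c * Complex.I := by rw [← this]; ring
    rw [h2]
    simp
  set r : ℝ := Real.exp (-Real.pi / N) with hr
  have hr1 : r < 1 := by
    rw [hr, Real.exp_lt_one_iff]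
    exact div_neg_of_neg_of_pos (neg_lt_zero.mpr Real.pi_pos) hN
  have hr0 : 0 ≤ r := (Real.exp_pos _).le
  have hsub : Metric.closedBall (0 : ℂ) r ⊆ Metric.ball 0 1 := Metric.closedBall_subset_ball hr1
  have hmax : ∀ δ, ∃ q ∈ Metric.closedBall (0 : ℂ) r,
      IsMaxOn (fun q => ‖W δ q‖) (Metric.closedBall 0 r) q := by
    intro δ
    refine (isCompact_closedBall (0 : ℂ) r).exists_isMaxOn ⟨0, by simpa using hr0⟩ ?_
    exact ((hWdiff δ).continuousOn.mono hsub).norm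
  choose qm hqm hqmax using hmax
  let rep : (SL(2, ℤ) ⧸ CongruenceSubgroup.Gamma N) → SL(2, ℤ) := fun x => (x.out)⁻¹
  obtain ⟨x₀, hx₀⟩ := Finite.exists_max (fun x => ‖W (rep x) (qm (rep x))‖)
  have hbound : ∀ x, ∀ q ∈ Metric.ball (0 : ℂ) 1, ‖W (rep x) q‖ ≤ ‖W (rep x₀) (qm (rep x₀))‖ := by
    intro x q hq
    rcases eq_or_ne q 0 with rfl | hq0
    · exact (hqmax (rep x) (by simpa using hr0)).trans (hx₀ x)
    · have hpos := im_invQParam_pos_of_norm_lt_one hN (mem_ball_zero_iff.mp hq) hq0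
      set z : ℍ := ⟨invQParam N q, hpos⟩ with hz
      have hqz : q = qParam N z := (qParam_right_inv hN.ne' hq0).symm
      obtain ⟨g, hg⟩ := ModularGroup.exists_one_half_le_im_smul z
      obtain ⟨γ', hγ'⟩ := QuotientGroup.mk_out_eq_mul (CongruenceSubgroup.Gamma N) ((rep x * g⁻¹)⁻¹)
      set y : SL(2, ℤ) ⧸ CongruenceSubgroup.Gamma N := QuotientGroup.mk ((rep x * g⁻¹)⁻¹ : SL(2, ℤ)) with hy
      have hrep : rep x * g⁻¹ = γ' * rep y := by
        simp only [rep, hγ']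
        group
      have h1 : rep x • z = (γ' * rep y) • (g • z) := by
        rw [← hrep, ← mul_smul, inv_mul_cancel_right]
      rw [hqz, hWeq, h1, hnorm _ γ'.2, ← hWeq]
      refine (hqmax (rep y) ?_).trans (hx₀ y)
      rw [mem_closedBall_zero_iff, norm_qParam, hr]
      apply Real.exp_le_exp.mpr
      have h3 : (1 : ℝ) / 2 ≤ ((g • z : ℍ) : ℂ).im := hg
      rw [div_le_div_iff_of_pos_right hN]
      nlinarith [Real.pi_pos]
  have hconst := Complex.eqOn_of_isPreconnected_of_isMaxOn_norm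
    (convex_ball (0 : ℂ) 1).isPreconnected Metric.isOpen_ball (hWdiff (rep x₀))
    (hsub (hqm (rep x₀))) (fun q hq => hbound x₀ q hq)
  set C : ℂ := W (rep x₀) (qm (rep x₀)) with hC
  have hexp : ∀ z : ℍ, exp (Φ z) = C := by
    intro z
    have h1 : ‖qParam N ((rep x₀)⁻¹ • z : ℍ)‖ < 1 := norm_qParam_lt_one hN (im_pos _)
    have := hconst (mem_ball_zero_iff.mpr h1)
    rw [hWeq, smul_inv_smul] at this
    exact this
  intro τ
  have h1 : HasDerivAt (fun z => exp ((Φ ∘ ofComplex) z)) (exp ((Φ ∘ ofComplex) τ) * φ τ) τ :=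
    (hder τ).cexp
  have h2 : HasDerivAt (fun z => exp ((Φ ∘ ofComplex) z)) 0 τ := by
    refine (hasDerivAt_const (τ : ℂ) C).congr_of_eventuallyEq ?_
    filter_upwards with z using hexp _
  have h3 := h1.unique h2
  exact (mul_eq_zero.mp h3).resolve_left (exp_ne_zero _)

/-- the port of `S21.deriv_eq_zero_of_re_invariant`. -/
theorem deriv_eq_zero_of_re_invariant_Gamma (h : ℕ) [NeZero h] (Φ φ : ℍ → ℂ)
    (hder : ∀ τ : ℍ, HasDerivAt (Φ ∘ ofComplex) (φ τ) ↑τ)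
    (hinv : ∀ γ ∈ CongruenceSubgroup.Gamma h, ∃ c : ℝ, ∀ z : ℍ, Φ (γ • z) - Φ z = c * Complex.I)
    (hlim : ∀ δ : SL(2, ℤ), ∃ L : ℂ, Tendsto (fun w : ℍ => Φ (δ • w)) atImInfty (𝓝 L)) :
    ∀ τ, φ τ = 0 :=
  deriv_eq_zero_of_re_invariant_Gamma_aux h Φ φ hder hinv hlim

theorem eq_zero_of_per {M : ℕ} [NeZero M] (G : CuspForm (Gamma1 M) 2) (h : ℕ) [NeZero h]
    (hinv : ∀ γ ∈ CongruenceSubgroup.Gamma h, ⇑G ∣[(2 : ℤ)] γ = ⇑G) (hper : ∀ γ ∈ CongruenceSubgroup.Gamma h, per ⇑G γ = 0) : G = 0 := by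
  have h1 := deriv_eq_zero_of_re_invariant_Gamma h (prim ⇑G) ⇑G (hasDerivAt_prim G)
    (fun γ hγ => ⟨0, fun z => by
      rw [prim_smul_sub G γ (hinv γ hγ) z, hper γ hγ]
      simp⟩)
    (exists_tendsto_prim G)
  ext τ
  exact h1 τ

end Fermat.Agent.S48.ModL.EC
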