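import Fermat.Agent.S48.Defs

/-!
# S48 / MODL / EC / Teich  (WP [EC-TEICH], pure algebra): the Teichmüller character attached to `φ`

`φ : OO →+* k`, `(ℓ : k) = 0`.  There is a Dirichlet character `ω` mod `ℓ` with values in `OO` and
`φ (ω d) = d`.

Proof: `(ZMod ℓ)ˣ` is cyclic of order `ℓ - 1`, generator `g`.  Let `ζ = exp(2πi/(ℓ-1)) ∈ OO`, a
primitive `(ℓ-1)`-th root of unity.  `φ ζ` is again a primitive `(ℓ-1)`-th root of unity in `k`
(`X^(ℓ-1) - 1 = ∏ (X - ζ^j)` in `OO[X]`; take derivatives / evaluate `∏_{0<j<ℓ-1} (1 - ζ^j) = ℓ - 1`, which is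
nonzero in `k`), and the `(ℓ-1)`-th roots of unity of `k` are exactly the images of `(ZMod ℓ)ˣ`
(`ZMod.castHom`/`ZMod.pow_card_sub_one_eq_one`, there are at most `ℓ-1` roots).  So `(g : k) = φ ζ ^ j` for
some `j`, and `ω g := ζ ^ j` defines the character (`ζ^j` has order dividing `ℓ - 1`;
`MulChar.ofRootOfUnity` / `monoidHomOfForallMemZpowers` / `zmultiplesHom`-type constructions, or
`MulChar.equivRootsOfUnity`-API; alternatively: the restriction of `φ` to `rootsOfUnity (ℓ-1) OO` is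
injective, hence bijective onto `rootsOfUnity (ℓ-1) k ⊇ image of (ZMod ℓ)ˣ`, and `ω` is the inverse).
-/

set_option autoImplicit false

namespace Fermat.Agent.S48.ModL.EC

/-- values of Dirichlet characters are algebraic integers. -/
theorem exists_OO_of_dirichlet {M : ℕ} [NeZero M] (ψ : DirichletCharacter ℂ M) :
    ∃ w : ZMod M → OO, ∀ d, (w d : ℂ) = ψ d := by
  have key : ∀ d : ZMod M, IsIntegral ℤ (ψ d) := by
    intro d
    by_cases hd : IsUnit d
    · obtain ⟨u, rfl⟩ := hd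
      refine IsIntegral.of_pow (n := Fintype.card (ZMod M)ˣ) Fintype.card_pos ?_
      rw [← map_pow, ← Units.val_pow_eq_pow_val, pow_card_eq_one, Units.val_one, map_one]
      exact isIntegral_one
    · rw [MulChar.map_nonunit ψ hd]
      exact isIntegral_zero
  exact ⟨fun d => ⟨ψ d, key d⟩, fun d => rfl⟩

/-- the kernel of `φ` is a maximal ideal (`OO` is integral over `ℤ`, `ker φ ∩ ℤ = (ℓ)`;
`Ideal.isMaximal_of_isIntegral_of_isMaximal_comap`). -/
theorem isMaximal_ker_OO (ℓ : ℕ) (hℓ : ℓ.Prime) {k : Type} [Field k] (φ : OO →+* k)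
    (hφ : (ℓ : k) = 0) : (RingHom.ker φ).IsMaximal := by
  have : (RingHom.ker φ).IsPrime := RingHom.ker_isPrime φ
  refine Ideal.isMaximal_of_isIntegral_of_isMaximal_comap (R := ℤ) (RingHom.ker φ) ?_
  have : ((RingHom.ker φ).comap (algebraMap ℤ OO)).IsPrime := Ideal.comap_isPrime _ _
  refine IsPrime.to_maximal_ideal (fun h => ?_)
  have h1 : (ℓ : ℤ) ∈ (RingHom.ker φ).comap (algebraMap ℤ OO) := by
    rw [Ideal.mem_comap, RingHom.mem_ker]
    simpa using hφ
  rw [h, Ideal.mem_bot] at h1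
  exact hℓ.ne_zero (by exact_mod_cast h1)

theorem exists_teich (ℓ : ℕ) (hℓ : ℓ.Prime) {k : Type} [Field k] (φ : OO →+* k)
    (hφ : (ℓ : k) = 0) :
    ∃ (ω : DirichletCharacter ℂ ℓ) (w : ZMod ℓ → OO),
      (∀ d, (w d : ℂ) = ω d) ∧ ∀ d : ZMod ℓ, φ (w d) = (d.val : k) := by
  have : Fact ℓ.Prime := ⟨hℓ⟩
  have : CharP k ℓ := (CharP.charP_iff_prime_eq_zero hℓ).2 hφ
  set n : ℕ := ℓ - 1 with hn
  have hn0 : n ≠ 0 := by have := hℓ.two_le; omega
  have : NeZero n := ⟨hn0⟩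
  have hnk : (n : k) ≠ 0 := by
    intro h
    have h1 : ((n + 1 : ℕ) : k) = 0 := by
      have : n + 1 = ℓ := by have := hℓ.two_le; omega
      rw [this]; exact hφ
    rw [Nat.cast_add, h, zero_add, Nat.cast_one] at h1
    exact one_ne_zero h1
  -- a primitive root of unity in `OO`
  have hζC := Complex.isPrimitiveRoot_exp n hn0
  set ζ : OO := ⟨_, hζC.isIntegral (Nat.pos_of_ne_zero hn0)⟩ with hζ
  have hζO : IsPrimitiveRoot ζ n :=
    IsPrimitiveRoot.of_map_of_injective (f := algebraMap OO ℂ) (hf := Subtype.val_injective) hζC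
  -- its image is primitive
  have hinj : ∀ ξ : OO, ξ ^ n = 1 → φ ξ = 1 → ξ = 1 := by
    intro ξ h1 h2
    by_contra hne
    have h3 : (ξ - 1) * ∑ i ∈ Finset.range n, ξ ^ i = 0 := by
      rw [mul_comm, geom_sum_mul, h1, sub_self]
    have h4 : ∑ i ∈ Finset.range n, ξ ^ i = 0 :=
      (mul_eq_zero.1 h3).resolve_left (sub_ne_zero.2 hne)
    have h5 := congrArg φ h4
    rw [map_sum, map_zero] at h5
    simp only [map_pow, h2, one_pow, Finset.sum_const, Finset.card_range, nsmul_eq_mul,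
      mul_one] at h5
    exact hnk h5
  have hζk : IsPrimitiveRoot (φ ζ) n := by
    refine IsPrimitiveRoot.mk_of_lt _ (Nat.pos_of_ne_zero hn0) (by rw [← map_pow, hζO.pow_eq_one, map_one]) ?_
    intro l hl0 hln h
    have h1 : ζ ^ l = 1 := hinj _ (by rw [← pow_mul, mul_comm, pow_mul, hζO.pow_eq_one, one_pow])
      (by rw [map_pow, h])
    exact (hζO.pow_ne_one_of_pos_of_lt hl0.ne' hln) h1
  obtain ⟨g, hg⟩ := IsCyclic.exists_generator (α := (ZMod ℓ)ˣ)
  have hcard : Fintype.card (ZMod ℓ)ˣ = n := by rw [ZMod.card_units_eq_totient, Nat.totient_prime hℓ]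
  let c : ZMod ℓ →+* k := ZMod.castHom (dvd_refl ℓ) k
  have hgn : (c (g : ZMod ℓ)) ^ n = 1 := by
    rw [← map_pow, ← Units.val_pow_eq_pow_val, ← hcard, pow_card_eq_one, Units.val_one, map_one]
  obtain ⟨i, -, hi⟩ := hζk.eq_pow_of_pow_eq_one hgn
  have hξ : (ζ ^ i) ^ n = 1 := by rw [← pow_mul, mul_comm, pow_mul, hζO.pow_eq_one, one_pow]
  let ξ : OOˣ := Units.ofPowEqOne (ζ ^ i) n hξ hn0
  have hξm : ξ ∈ rootsOfUnity (Fintype.card (ZMod ℓ)ˣ) OO := by
    rw [hcard, mem_rootsOfUnity]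
    exact Units.ext (by simp [ξ])
  let ωO : MulChar (ZMod ℓ) OO := MulChar.ofRootOfUnity hξm hg
  have hωg : ωO g = ζ ^ i := by
    have := MulChar.ofRootOfUnity_spec hξm hg
    rw [this]
    rfl
  refine ⟨ωO.ringHomComp (algebraMap OO ℂ), fun d => ωO d, fun d => rfl, ?_⟩
  intro d
  have hcd : (d.val : k) = c d := by
    rw [ZMod.natCast_val]; rfl
  rw [hcd]
  show φ (ωO d) = c d
  by_cases hd : IsUnit d
  · obtain ⟨u, rfl⟩ := hd
    obtain ⟨m, rfl⟩ := Subgroup.mem_zpowers_iff.1 (hg u)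
    have hA : ∀ v : (ZMod ℓ)ˣ, φ (ωO v) = ((Units.map (φ : OO →* k)).comp ωO.toUnitHom v : kˣ) := by
      intro v
      simp
    have hB : ∀ v : (ZMod ℓ)ˣ, c v = (Units.map (c : ZMod ℓ →* k) v : kˣ) := by
      intro v
      simp
    rw [hA, hB, map_zpow, map_zpow]
    congr 2
    apply Units.ext
    rw [← hA, ← hB, hωg, map_pow, hi]
  · rw [MulChar.map_nonunit ωO hd, map_zero]
    have : d = 0 := by
      by_contra h0
      exact hd (IsUnit.mk0 d h0)
    rw [this, map_zero]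

end Fermat.Agent.S48.ModL.EC
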