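import Fermat.Agent.S48.ModL.EC.Op
import Fermat.Agent.S48.ModL.EC.Teich
import Fermat.Agent.GAL.EigenChar.Alg

/-!
# S48 / MODL / EC / Line  (WP [EC-LINE]): the eigenline modulo `ker φ`

`x n` = coefficients of the weight one form `f` (only an eigenform outside the level, so the `x n` need
not be integral, but they lie in a f.g. `ℤ`-module).  `F = f * g ∈ charSub M 2 ψ`, `g ≡ b 0` mod `ker φ`.

## Proof
* `W' := Submodule.span OO (Set.range x) ⊆ ℂ`.  It is a f.g. `OO`-module: the `ℤ`-span `W₀` of `range x` is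
  a submodule of the f.g. `W`, so it is f.g. (`ℤ` noetherian), `W₀ = span ℤ S₀`, `S₀` finite, and
  `W' = span OO S₀`.  It is faithful (`x 1 = 1 ∈ W'`).
* `GAL.EigenChar.exists_eigen_functional (R := OO) (M := W') φ (isMaximal_ker_OO ℓ hℓ φ hφ) faithful` gives
  `μ : W' →+ k`, `μ ≠ 0`, `μ (r • m) = φ r * μ m`.  Put `y n := μ ⟨x n, _⟩`.  `y ≠ 0` (else `μ = 0` by
  `Submodule.span_induction`); fix `n₀` with `y n₀ ≠ 0`.  `hrec` gives
  `y (p n) + φ (e p) [p ∣ n] y (n / p) = φ (a p) y n`.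
* `E := {G | (∀ n, qCoeff G n ∈ W') ∧ ∃ t : k, ∀ n h, μ ⟨qCoeff G n, h⟩ = t * y n}`,
  `s G := μ ⟨qCoeff G n₀, _⟩ / y n₀` (`= t`).  (`qCoeff` is additive: `coeffL` in `Forms/FinDim.lean`.)
* `F ∈ E` with `t = φ (b 0)`: `μ (∑ x i * b j) = ∑ φ (b j) y i = φ (b 0) y n`.  So `s ≠ 0`.
* `Tp`: `qCoeff_Tp`;  `μ(a_{pn}(G) + p ψ(p) [p ∣ n] a_{n/p}(G)) = t (y (pn) + φ(p ψO p) [p ∣ n] y (n/p))
  = t φ (a p) y n`.  Scalars `r : OO`: clear.
-/

set_option autoImplicit false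

open UpperHalfPlane hiding I
open CongruenceSubgroup ModularForm ModularFormClass
open scoped Manifold MatrixGroups ModularForm

namespace Fermat.Agent.S48.ModL.EC

/-- the `OO`-span of a sequence contained in a finitely generated group is finitely generated. -/
theorem line_span_fg (x : ℕ → ℂ) (hfg : ∃ W : Submodule ℤ ℂ, W.FG ∧ ∀ n, x n ∈ W) :
    (Submodule.span OO (Set.range x)).FG := by
  obtain ⟨W, hW, hx⟩ := hfg
  have h1 : IsNoetherian ℤ W := isNoetherian_of_fg_of_noetherian W hW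
  have hle : Submodule.span ℤ (Set.range x) ≤ W := by
    rw [Submodule.span_le]
    rintro _ ⟨n, rfl⟩
    exact hx n
  have h2 : IsNoetherian ℤ (Submodule.span ℤ (Set.range x)) := isNoetherian_of_le hle
  have h3 : (Submodule.span ℤ (Set.range x)).FG :=
    (Submodule.fg_top _).1 (IsNoetherian.noetherian ⊤)
  obtain ⟨S, hS⟩ := h3
  refine ⟨S, ?_⟩
  rw [← Submodule.span_span_of_tower ℤ OO (S : Set ℂ), hS, Submodule.span_span_of_tower]

theorem exists_line_abs {V : Type*} [AddCommGroup V] [Module ℂ V] (q : ℕ → V →ₗ[ℂ] ℂ)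
    (T : ℕ → V →ₗ[ℂ] V) (P : ℕ → Prop) (c : ℕ → OO)
    (hT : ∀ p, P p → ∀ G n,
      q n (T p G) = q (p * n) G + (c p : ℂ) * (if p ∣ n then q (n / p) G else 0))
    (ℓ : ℕ) (hℓ : ℓ.Prime) {k : Type} [Field k] (φ : OO →+* k) (hφ : (ℓ : k) = 0)
    (x : ℕ → ℂ) (hfg : ∃ W : Submodule ℤ ℂ, W.FG ∧ ∀ n, x n ∈ W) (hx1 : x 1 = 1)
    (a e : ℕ → OO)
    (hrec : ∀ p : ℕ, P p → ∀ n : ℕ,
      x (p * n) + (e p : ℂ) * (if p ∣ n then x (n / p) else 0) = (a p : ℂ) * x n)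
    (hpe : ∀ p : ℕ, P p → φ (c p) = φ (e p))
    (F : V) (b : ℕ → OO)
    (hF : ∀ n, q n F = ∑ ij ∈ Finset.HasAntidiagonal.antidiagonal n, x ij.1 * (b ij.2 : ℂ))
    (hb0 : φ (b 0) ≠ 0) (hb : ∀ n, n ≠ 0 → φ (b n) = 0) :
    ∃ (E : AddSubgroup V) (s : E →+ k), s ≠ 0 ∧
      (∀ p : ℕ, P p → ∀ G : E, ∃ h : T p (G : V) ∈ E, s ⟨_, h⟩ = φ (a p) * s G) ∧
      (∀ (r : OO) (G : E), ∃ h : (r : ℂ) • (G : V) ∈ E, s ⟨_, h⟩ = φ r * s G) := by
  classical
  set W' : Submodule OO ℂ := Submodule.span OO (Set.range x) with hW'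
  have hxW : ∀ n, x n ∈ W' := fun n => Submodule.subset_span ⟨n, rfl⟩
  have : Module.Finite OO W' := Module.Finite.iff_fg.2 (line_span_fg x hfg)
  have hfaith : ∀ r : OO, (∀ m : W', r • m = 0) → r = 0 := by
    intro r hr
    have h1 := congrArg Subtype.val (hr ⟨x 1, hxW 1⟩)
    have h2 : (r : ℂ) * x 1 = 0 := h1
    rw [hx1, mul_one] at h2
    exact Subtype.ext h2
  obtain ⟨μ, hμ0, hμ⟩ := GAL.EigenChar.exists_eigen_functional (R := OO) (M := W') φ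
    (isMaximal_ker_OO ℓ hℓ φ hφ) hfaith
  -- extension by zero
  let μ' : ℂ → k := fun z => if h : z ∈ W' then μ ⟨z, h⟩ else 0
  have hμ' : ∀ (z : ℂ) (h : z ∈ W'), μ' z = μ ⟨z, h⟩ := fun z h => dif_pos h
  have hadd : ∀ z z' : ℂ, z ∈ W' → z' ∈ W' → μ' (z + z') = μ' z + μ' z' := by
    intro z z' h h'
    rw [hμ' _ h, hμ' _ h', hμ' _ (W'.add_mem h h'), ← map_add]
    rfl
  have hzero : μ' 0 = 0 := by
    rw [hμ' _ W'.zero_mem]
    exact map_zero μ
  have hneg : ∀ z : ℂ, z ∈ W' → μ' (-z) = - μ' z := by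
    intro z h
    rw [hμ' _ h, hμ' _ (W'.neg_mem h), ← map_neg]
    rfl
  have hmulW : ∀ (r : OO) (z : ℂ), z ∈ W' → (r : ℂ) * z ∈ W' := fun r z h => W'.smul_mem r h
  have hmul : ∀ (r : OO) (z : ℂ), z ∈ W' → μ' ((r : ℂ) * z) = φ r * μ' z := by
    intro r z h
    rw [hμ' _ h, hμ' _ (hmulW r z h), ← hμ]
    rfl
  have hsum : ∀ {ι : Type} (s : Finset ι) (f : ι → ℂ), (∀ i ∈ s, f i ∈ W') →
      μ' (∑ i ∈ s, f i) = ∑ i ∈ s, μ' (f i) := by
    intro ι s f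
    induction s using Finset.induction_on with
    | empty => intro _; simpa using hzero
    | insert i s hi ih =>
      intro h
      rw [Finset.sum_insert hi, Finset.sum_insert hi,
        hadd _ _ (h i (Finset.mem_insert_self i s))
          (W'.sum_mem fun j hj => h j (Finset.mem_insert_of_mem hj)),
        ih fun j hj => h j (Finset.mem_insert_of_mem hj)]
  set y : ℕ → k := fun n => μ' (x n) with hy
  obtain ⟨n₀, hn₀⟩ : ∃ n₀, y n₀ ≠ 0 := by
    by_contra hcon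
    push Not at hcon
    apply hμ0
    ext ⟨z, hz⟩
    rw [AddMonoidHom.zero_apply, ← hμ' z hz]
    induction hz using Submodule.span_induction with
    | mem z hz =>
      obtain ⟨n, rfl⟩ := hz
      exact hcon n
    | zero => exact hzero
    | add z z' hz hz' ih ih' => rw [hadd _ _ hz hz', ih, ih', add_zero]
    | smul r z hz ih =>
      have : r • z = (r : ℂ) * z := rfl
      rw [this, hmul r z hz, ih, mul_zero]
  have hite : ∀ (p n : ℕ) (f : ℕ → ℂ), (∀ m, f m ∈ W') →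
      (if p ∣ n then f (n / p) else 0) ∈ W' := by
    intro p n f hf
    split_ifs
    · exact hf _
    · exact W'.zero_mem
  have hiteμ : ∀ (p n : ℕ) (f : ℕ → ℂ),
      μ' (if p ∣ n then f (n / p) else 0) = if p ∣ n then μ' (f (n / p)) else 0 := by
    intro p n f
    split_ifs
    · rfl
    · exact hzero
  have hrecy : ∀ p, P p → ∀ n,
      y (p * n) + φ (e p) * (if p ∣ n then y (n / p) else 0) = φ (a p) * y n := by
    intro p hp n
    have h1 := congrArg μ' (hrec p hp n)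
    rw [hadd _ _ (hxW _) (hmulW _ _ (hite p n x hxW)), hmul _ _ (hite p n x hxW), hiteμ,
      hmul _ _ (hxW n)] at h1
    exact h1
  let E : AddSubgroup V :=
    { carrier := {G | ∃ t : k, ∀ n, q n G ∈ W' ∧ μ' (q n G) = t * y n}
      zero_mem' := ⟨0, fun n => by
        rw [map_zero, zero_mul]
        exact ⟨W'.zero_mem, hzero⟩⟩
      add_mem' := by
        rintro G G' ⟨t, ht⟩ ⟨t', ht'⟩
        refine ⟨t + t', fun n => ?_⟩
        rw [map_add, hadd _ _ (ht n).1 (ht' n).1, (ht n).2, (ht' n).2, add_mul]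
        exact ⟨W'.add_mem (ht n).1 (ht' n).1, rfl⟩
      neg_mem' := by
        rintro G ⟨t, ht⟩
        refine ⟨-t, fun n => ?_⟩
        rw [map_neg, hneg _ (ht n).1, (ht n).2, neg_mul]
        exact ⟨W'.neg_mem (ht n).1, rfl⟩ }
  have hE : ∀ G : V, G ∈ E ↔ ∃ t : k, ∀ n, q n G ∈ W' ∧ μ' (q n G) = t * y n := fun G => Iff.rfl
  let s : E →+ k :=
    { toFun := fun G => μ' (q n₀ (G : V)) / y n₀
      map_zero' := by
        show μ' (q n₀ 0) / y n₀ = 0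
        rw [map_zero, hzero, zero_div]
      map_add' := by
        rintro ⟨G, t, ht⟩ ⟨G', t', ht'⟩
        show μ' (q n₀ (G + G')) / y n₀ = μ' (q n₀ G) / y n₀ + μ' (q n₀ G') / y n₀
        rw [map_add, hadd _ _ (ht n₀).1 (ht' n₀).1, add_div] }
  have hs : ∀ (G : V) (h : G ∈ E) (t : k), (∀ n, q n G ∈ W' ∧ μ' (q n G) = t * y n) →
      s ⟨G, h⟩ = t := by
    intro G h t ht
    show μ' (q n₀ G) / y n₀ = t
    rw [(ht n₀).2, mul_div_cancel_right₀ _ hn₀]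
  have hFE : ∀ n, q n F ∈ W' ∧ μ' (q n F) = φ (b 0) * y n := by
    intro n
    have hmem : ∀ ij ∈ Finset.HasAntidiagonal.antidiagonal n, x ij.1 * (b ij.2 : ℂ) ∈ W' := by
      intro ij _
      rw [mul_comm]
      exact hmulW _ _ (hxW _)
    rw [hF n]
    refine ⟨W'.sum_mem hmem, ?_⟩
    rw [hsum _ _ hmem, Finset.sum_eq_single (n, 0)]
    · rw [mul_comm, hmul _ _ (hxW _)]
    · rintro ⟨i, j⟩ hij hne
      have hj : j ≠ 0 := by
        rintro rfl
        apply hne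
        rw [Finset.HasAntidiagonal.mem_antidiagonal] at hij
        simp only [add_zero] at hij
        rw [hij]
      show μ' (x i * (b j : ℂ)) = 0
      rw [mul_comm, hmul _ _ (hxW _), hb j hj, zero_mul]
    · intro h
      exact absurd (Finset.HasAntidiagonal.mem_antidiagonal.2 (by simp)) h
  refine ⟨E, s, ?_, ?_, ?_⟩
  · intro h0
    have h1 := hs F ⟨_, hFE⟩ _ hFE
    rw [h0] at h1
    exact hb0 h1.symm
  · rintro p hp ⟨G, t, ht⟩
    have key : ∀ n, q n (T p G) ∈ W' ∧ μ' (q n (T p G)) = (φ (a p) * t) * y n := by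
      intro n
      have hq : ∀ m, q m G ∈ W' := fun m => (ht m).1
      rw [hT p hp G n]
      refine ⟨W'.add_mem (hq _) (hmulW _ _ (hite p n (fun m => q m G) hq)), ?_⟩
      rw [hadd _ _ (hq _) (hmulW _ _ (hite p n (fun m => q m G) hq)),
        hmul _ _ (hite p n (fun m => q m G) hq), hiteμ p n (fun m => q m G), (ht _).2, hpe p hp]
      have h := hrecy p hp n
      split_ifs at h ⊢ with hd
      · rw [(ht _).2]; linear_combination t * h
      · linear_combination t * h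
    refine ⟨⟨_, key⟩, ?_⟩
    rw [hs _ _ _ key, hs G ⟨t, ht⟩ t ht]
  · rintro r ⟨G, t, ht⟩
    have key : ∀ n, q n ((r : ℂ) • G) ∈ W' ∧ μ' (q n ((r : ℂ) • G)) = (φ r * t) * y n := by
      intro n
      rw [map_smul, smul_eq_mul]
      exact ⟨hmulW _ _ (ht n).1, by rw [hmul _ _ (ht n).1, (ht n).2, mul_assoc]⟩
    refine ⟨⟨_, key⟩, ?_⟩
    rw [hs _ _ _ key, hs G ⟨t, ht⟩ t ht]

theorem exists_line {M : ℕ} [NeZero M] (ψ : DirichletCharacter ℂ M) (ψO : ℕ → OO)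
    (hψO : ∀ p : ℕ, (ψO p : ℂ) = ψ (p : ZMod M))
    (ℓ : ℕ) (hℓ : ℓ.Prime) {k : Type} [Field k] (φ : OO →+* k) (hφ : (ℓ : k) = 0)
    (x : ℕ → ℂ) (hfg : ∃ W : Submodule ℤ ℂ, W.FG ∧ ∀ n, x n ∈ W) (hx1 : x 1 = 1)
    (a e : ℕ → OO)
    (hrec : ∀ p : ℕ, p.Prime → ¬ p ∣ M → ∀ n : ℕ,
      x (p * n) + (e p : ℂ) * (if p ∣ n then x (n / p) else 0) = (a p : ℂ) * x n)
    (hpe : ∀ p : ℕ, p.Prime → ¬ p ∣ M → (p : k) * φ (ψO p) = φ (e p))
    (F : charSub M 2 ψ) (b : ℕ → OO)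
    (hF : ∀ n, qCoeff F.1 n = ∑ ij ∈ Finset.HasAntidiagonal.antidiagonal n, x ij.1 * (b ij.2 : ℂ))
    (hb0 : φ (b 0) ≠ 0) (hb : ∀ n, n ≠ 0 → φ (b n) = 0) :
    ∃ (E : AddSubgroup (charSub M 2 ψ)) (s : E →+ k), s ≠ 0 ∧
      (∀ p : ℕ, p.Prime → ¬ p ∣ M → ∀ G : E,
        ∃ h : Tp ψ p (G : charSub M 2 ψ) ∈ E, s ⟨_, h⟩ = φ (a p) * s G) ∧
      (∀ (r : OO) (G : E), ∃ h : (r : ℂ) • (G : charSub M 2 ψ) ∈ E, s ⟨_, h⟩ = φ r * s G) := by
  obtain ⟨E, s, h1, h2, h3⟩ := exists_line_abs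
    (fun n => (coeffL M 2 n).comp (charSub M 2 ψ).subtype) (Tp ψ) (fun p => p.Prime ∧ ¬ p ∣ M)
    (fun p => (p : OO) * ψO p)
    (fun p hp G n => by
      have := qCoeff_Tp ψ hp.1 hp.2 G n
      simp only [LinearMap.comp_apply, Submodule.subtype_apply, coeffL_apply]
      rw [this]
      push_cast
      rw [hψO])
    ℓ hℓ φ hφ x hfg hx1 a e (fun p hp => hrec p hp.1 hp.2)
    (fun p hp => by rw [map_mul, map_natCast]; exact hpe p hp.1 hp.2) F b hF hb0 hb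
  exact ⟨E, s, h1, fun p hp hpM => h2 p ⟨hp, hpM⟩, h3⟩

end Fermat.Agent.S48.ModL.EC
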