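import Fermat.Agent.S48.ModL.EC.Defs

/-!
# S48 / MODL / EC / Coset  (WP [EC-COSET]): group theory of `GY M`

* `exists_transferY`: pattern = the `calc` block of `HeckeAux.TT_slash` (`Forms/Hecke.lean`):
  `heckeRep_mul (N := M ^ 2) hpN γ hγ x` gives `g'` with `M² ∣ g' 1 0` and
  `heckeRep p x * γ = g' * heckeRep p (redMatrix p γ • x)`; put `σ = MulAction.toPerm (redMatrix p γ)`,
  `d x = rep s x * g' * (rep s (σ x))⁻¹` (`HeckeAux.rep`, `repY p s x = mapGL (rep s x) * heckeRep p x`);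
  lower right entry mod `M` by `HeckeAux.entry_rel`, `w_mul_W`, `rep_apply`: it is `γ 1 1`.
* `fg_GY`: `Gamma (M^2) ≤ GY M` has finite index, `SL(2, ℤ)` is f.g.; pattern
  `GAL.EigenChar.perLat_fg` (`Fermat/Agent/GAL/EigenChar/Per.lean`), `Subgroup.fg_of_index_ne_zero`.
-/

set_option autoImplicit false

open UpperHalfPlane hiding I
open Function CongruenceSubgroup ModularForm
open scoped Manifold MatrixGroups ModularForm
open Matrix.SpecialLinearGroup (mapGL)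
open P2MW.S_ModularForm_heckeT_slash_eq_self_of_mem_Gamma0.ModularForm.HeckeSlashInvariance

namespace Fermat.Agent.S48.ModL.EC

variable {M : ℕ}

theorem conj_mem_GY {s γ : SL(2, ℤ)} (hs : s ∈ Gamma0 (M ^ 2)) (hγ : γ ∈ GY M) :
    s * γ * s⁻¹ ∈ GY M := by
  have hs' := Gamma0_sq_le M hs
  have hγ' := Gamma0_sq_le M hγ.1
  refine ⟨mul_mem (mul_mem hs hγ.1) (inv_mem hs), ?_⟩
  have e : (((s * γ * s⁻¹) 1 1 : ℤ) : ZMod M) = ((γ 1 1 : ℤ) : ZMod M) := by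
    rw [Gamma0_mul_entry (mul_mem hs' hγ'), Gamma0_mul_entry hs', mul_right_comm,
      Gamma0_entry_mul_inv hs', one_mul]
  rw [e]
  exact hγ.2

theorem exists_diamond_rep (p : ℕ) (hpM : Nat.Coprime p M) :
    ∃ s : SL(2, ℤ), s ∈ Gamma0 (M ^ 2) ∧ ((s 1 1 : ℤ) : ZMod M) = p := by
  obtain ⟨s, hs, hd⟩ := exists_mem_Gamma0_of_coprime (M ^ 2) 1 (p : ℤ) (by
    have h1 : Nat.Coprime p (M ^ 2) := Nat.Coprime.pow_right 2 hpM
    rw [← Nat.isCoprime_iff_coprime] at h1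
    simpa using h1)
  rw [mul_one] at hs
  exact ⟨s, hs, by rw [hd]; simp⟩

theorem intCast_eq_of_sq {M : ℕ} {a b : ℤ} (h : (a : ZMod (M ^ 2)) = (b : ZMod (M ^ 2))) :
    (a : ZMod M) = (b : ZMod M) := by
  rw [ZMod.intCast_eq_intCast_iff_dvd_sub] at h ⊢
  exact dvd_trans (by push_cast; exact Dvd.intro_left ((M : ℤ) ^ 1) (by ring)) h

theorem Gamma_sq_le_GY (M : ℕ) : CongruenceSubgroup.Gamma (M ^ 2) ≤ GY M := by
  intro γ hγ
  rw [Gamma_mem] at hγ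
  refine ⟨Gamma0_mem.2 hγ.2.2.1, Or.inl ?_⟩
  have := intCast_eq_of_sq (M := M) (a := γ 1 1) (b := 1) (by rw [hγ.2.2.2]; simp)
  simpa using this

theorem Gamma_sq_le_Gamma1 (M : ℕ) : CongruenceSubgroup.Gamma (M ^ 2) ≤ Gamma1 M := by
  intro γ hγ
  rw [Gamma_mem] at hγ
  rw [Gamma1_mem]
  have h00 := intCast_eq_of_sq (M := M) (a := γ 0 0) (b := 1) (by rw [hγ.1]; simp)
  have h11 := intCast_eq_of_sq (M := M) (a := γ 1 1) (b := 1) (by rw [hγ.2.2.2]; simp)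
  have h10 := intCast_eq_of_sq (M := M) (a := γ 1 0) (b := 0) (by rw [hγ.2.2.1]; simp)
  exact ⟨by simpa using h00, by simpa using h11, by simpa using h10⟩

theorem fg_GY [NeZero M] : Group.FG (GY M) := by
  have hfg0 : Group.FG SL(2, ℤ) :=
    Group.fg_iff.mpr ⟨{ModularGroup.S, ModularGroup.T}, SpecialLinearGroup.SL2Z_generators,
      by simp⟩
  have : NeZero (M ^ 2) := ⟨pow_ne_zero 2 (NeZero.ne M)⟩
  have : (GY M).FiniteIndex := Subgroup.finiteIndex_of_le (Gamma_sq_le_GY M)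
  exact Subgroup.fg_of_index_ne_zero _

/-- forms with an even character are invariant under `GY M`. -/
theorem slash_eq_of_mem_GY {ψ : DirichletCharacter ℂ M} {g : ℍ → ℂ} (hg : HasChar M 2 ψ g)
    (hψ : ψ (-1) = 1) {γ : SL(2, ℤ)} (hγ : γ ∈ GY M) : g ∣[(2 : ℤ)] γ = g := by
  rw [hg γ (Gamma0_sq_le M hγ.1)]
  rcases hγ.2 with h | h
  · rw [h, map_one, one_smul]
  · rw [h, hψ, one_smul]

theorem repY_eq (p : ℕ) (s : SL(2, ℤ)) (x : OnePoint (ZMod p)) :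
    repY p s x = mapGL ℝ (HeckeAux.rep s x) * heckeRep p x := by
  induction x using OnePoint.rec with
  | infty => rfl
  | coe j =>
    show heckeRep p (j : OnePoint (ZMod p)) = mapGL ℝ (1 : SL(2, ℤ)) * heckeRep p j
    rw [map_one, one_mul]

theorem exists_transferY {p : ℕ} (hp : p.Prime) (hpM : ¬ p ∣ M) (s : SL(2, ℤ))
    (hs : s ∈ Gamma0 (M ^ 2)) (hsp : ((s 1 1 : ℤ) : ZMod M) = p) (γ : GY M) :
    ∃ (σ : Equiv.Perm (OnePoint (ZMod p))) (d : OnePoint (ZMod p) → GY M),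
      ∀ x, repY p s x * mapGL ℝ (γ : SL(2, ℤ)) = mapGL ℝ (d x : SL(2, ℤ)) * repY p s (σ x) := by
  haveI : Fact p.Prime := ⟨hp⟩
  have hpM2 : ¬ p ∣ M ^ 2 := fun h => hpM (hp.dvd_of_dvd_pow h)
  have hγ0 : (γ : SL(2, ℤ)) ∈ Gamma0 (M ^ 2) := γ.2.1
  have hc : ((M ^ 2 : ℕ) : ℤ) ∣ (γ : SL(2, ℤ)) 1 0 :=
    (ZMod.intCast_zmod_eq_zero_iff_dvd _ _).mp (Gamma0_mem.mp hγ0)
  choose g' hg' hmul using heckeRep_mul hpM2 (γ : SL(2, ℤ)) hc
  have hg'N : ∀ x, g' x ∈ Gamma0 (M ^ 2) := fun x =>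
    Gamma0_mem.mpr ((ZMod.intCast_zmod_eq_zero_iff_dvd _ _).mpr (hg' x))
  have hunit : IsUnit ((p : ℕ) : ZMod M) :=
    (ZMod.isUnit_iff_coprime p M).2 ((Nat.Prime.coprime_iff_not_dvd hp).2 hpM)
  set σ : Equiv.Perm (OnePoint (ZMod p)) := MulAction.toPerm (redMatrix p (γ : SL(2, ℤ))) with hσ
  have hσx : ∀ x, σ x = redMatrix p (γ : SL(2, ℤ)) • x := fun _ => rfl
  have hmem : ∀ x, HeckeAux.rep s x * g' x * (HeckeAux.rep s (σ x))⁻¹ ∈ GY M := by
    intro x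
    have h1 := HeckeAux.rep_mem (p := p) hs x
    have h2 := HeckeAux.rep_mem (p := p) hs (σ x)
    refine ⟨mul_mem (mul_mem h1 (hg'N x)) (inv_mem h2), ?_⟩
    have h1' := Gamma0_sq_le M h1
    have h2' := Gamma0_sq_le M h2
    have h3' := Gamma0_sq_le M (hg'N x)
    have e : (((HeckeAux.rep s x * g' x * (HeckeAux.rep s (σ x))⁻¹) 1 1 : ℤ) : ZMod M) =
        (((γ : SL(2, ℤ)) 1 1 : ℤ) : ZMod M) := by
      rw [Gamma0_mul_entry (mul_mem h1' h3'), Gamma0_mul_entry h1', HeckeAux.rep_apply hsp]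
      have hinv := Gamma0_entry_mul_inv h2'
      rw [HeckeAux.rep_apply hsp] at hinv
      have hrel := congrArg (Int.cast : ℤ → ZMod M)
        (HeckeAux.entry_rel hp.ne_zero (γ : SL(2, ℤ)) (g' x) x _ (hmul x))
      push_cast at hrel
      have hg'0 : ((g' x 1 0 : ℤ) : ZMod M) = 0 := Gamma0_mem.mp h3'
      rw [hg'0, zero_mul, zero_add] at hrel
      have k1 := congrArg (Int.cast : ℤ → ZMod M) (HeckeAux.w_mul_W x)
      have k2 := congrArg (Int.cast : ℤ → ZMod M)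
        (HeckeAux.w_mul_W (redMatrix p (γ : SL(2, ℤ)) • x))
      push_cast at k1 k2
      rw [hσx] at hinv ⊢
      refine hunit.mul_right_cancel ?_
      set a : ZMod M := ((HeckeAux.w p x : ℤ) : ZMod M)
      set b : ZMod M := ((HeckeAux.w p (redMatrix p (γ : SL(2, ℤ)) • x) : ℤ) : ZMod M)
      set A : ZMod M := ((HeckeAux.W p x : ℤ) : ZMod M)
      set B : ZMod M := ((HeckeAux.W p (redMatrix p (γ : SL(2, ℤ)) • x) : ℤ) : ZMod M)
      set c : ZMod M :=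
        ((((HeckeAux.rep s (redMatrix p (γ : SL(2, ℤ)) • x))⁻¹ 1 1 : ℤ)) : ZMod M)
      set G : ZMod M := ((g' x 1 1 : ℤ) : ZMod M)
      set D : ZMod M := (((γ : SL(2, ℤ)) 1 1 : ℤ) : ZMod M)
      -- `a A = p`, `b B = p`, `b c = 1`, `A D = G B`
      linear_combination (-(a * G * c)) * k2 + (a * G * B) * hinv - a * hrel + D * k1
    rw [e]
    exact γ.2.2
  refine ⟨σ, fun x => ⟨_, hmem x⟩, fun x => ?_⟩
  rw [repY_eq, repY_eq, mul_assoc, hmul x, ← hσx]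
  simp only [map_mul, map_inv]
  group

end Fermat.Agent.S48.ModL.EC
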