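import Fermat.Agent.S48.ModL.EC.Per
import Fermat.Agent.S48.ModL.EC.Coset
import Fermat.Agent.S16.CohPeriod

/-!
# S48 / MODL / EC / Transfer  (WP [EC-TRANSFER]): `per (T_p G) γ = ∑_x per G (d x)`

Let `Φ = prim G`, `Ψ z = ∑_x Φ (repY p s x • z)`.
* `Ψ` has derivative `∑_x G ∣[2] repY p s x = heckeU 2 p G + (G ∣[2] s) ∣[2] heckeDiagMatrix p
  = TpFn (ψ p) p G = G'` : `S16.hasDerivAt_comp_heckeMatrix`, `S16.hasDerivAt_comp_heckeDiagMatrix`
  (applied to `F₁ w = Φ (s • w)`, whose derivative is `G ∣[2] s` by `S21.hasDerivAt_comp_smul`),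
  `heckeU_eq_sum_zmod`, `Fintype.sum_option` (as in `HeckeAux.TT_eq`), `hG s _ : G ∣[2] s = ψ(s 1 1) • G`
  (`Gamma0_sq_le`).
* so `prim G' - Ψ` is constant (`S21.exists_const_of_hasDerivAt_zero`), `per G' γ = Ψ(γ i) - Ψ(i)`.
* telescoping as in `S16.sum_comp_smul_sub` (copy its proof with `GY M` instead of `Gamma0 N`), using
  `prim_smul_sub G (d x) (slash_eq_of_mem_GY hG hψ (d x).2)`.
-/

set_option autoImplicit false

open UpperHalfPlane hiding I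
open Complex Function Filter CongruenceSubgroup ModularForm ModularFormClass
open scoped Manifold MatrixGroups ModularForm Topology
open Matrix.SpecialLinearGroup (mapGL)
open P2MW.S_ModularForm_heckeT_slash_eq_self_of_mem_Gamma0.ModularForm.HeckeSlashInvariance

namespace Fermat.Agent.S48.ModL.EC

theorem per_TpFn {M : ℕ} [NeZero M] {ψ : DirichletCharacter ℂ M} (hψ : ψ (-1) = 1)
    (G G' : CuspForm (Gamma1 M) 2) (hG : HasChar M 2 ψ G) {p : ℕ} (hp : p.Prime)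
    (hG' : (⇑G' : ℍ → ℂ) = TpFn (ψ (p : ZMod M)) p ⇑G)
    (s : SL(2, ℤ)) (hs : s ∈ Gamma0 (M ^ 2)) (hsp : ((s 1 1 : ℤ) : ZMod M) = p)
    (γ : GY M) (σ : Equiv.Perm (OnePoint (ZMod p))) (d : OnePoint (ZMod p) → GY M)
    (h : ∀ x, repY p s x * mapGL ℝ (γ : SL(2, ℤ)) = mapGL ℝ (d x : SL(2, ℤ)) * repY p s (σ x)) :
    haveI : NeZero p := ⟨hp.ne_zero⟩
    per ⇑G' (γ : SL(2, ℤ)) = ∑ x, per ⇑G (d x : SL(2, ℤ)) := by
  have : NeZero p := ⟨hp.ne_zero⟩
  set Φ : ℍ → ℂ := prim ⇑G with hΦ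
  have hΦd : ∀ τ : ℍ, HasDerivAt (Φ ∘ ofComplex) (G τ) τ := hasDerivAt_prim G
  -- the derivative of each term
  have hd : ∀ (x : OnePoint (ZMod p)) (τ : ℍ),
      HasDerivAt ((fun w : ℍ => Φ (repY p s x • w)) ∘ ofComplex)
        ((x.elim ((⇑G ∣[(2 : ℤ)] s) ∣[(2 : ℤ)] heckeDiagMatrix p)
          (fun j => ⇑G ∣[(2 : ℤ)] heckeMatrix p j.val)) τ) τ := by
    intro x τ
    induction x using OnePoint.rec with
    | infty =>
      have h1 := S16.hasDerivAt_comp_heckeDiagMatrix (f := ⇑G ∣[(2 : ℤ)] s)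
        (F := fun w : ℍ => Φ (s • w)) (S21.hasDerivAt_comp_smul hΦd s) hp.ne_zero τ
      refine h1.congr_of_eventuallyEq (Eventually.of_forall fun w => ?_)
      show Φ ((mapGL ℝ s * heckeDiagMatrix p) • ofComplex w) = Φ (s • (heckeDiagMatrix p • ofComplex w))
      rw [mul_smul]
      rfl
    | coe j => exact S16.hasDerivAt_comp_heckeMatrix hΦd hp.ne_zero _ τ
  have hsum : (⇑G' : ℍ → ℂ) = ∑ x : OnePoint (ZMod p),
      (x.elim ((⇑G ∣[(2 : ℤ)] s) ∣[(2 : ℤ)] heckeDiagMatrix p)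
          (fun j => ⇑G ∣[(2 : ℤ)] heckeMatrix p j.val)) := by
    rw [hG', TpFn, heckeU_eq_sum_zmod, add_comm]
    refine Eq.trans ?_ (Fintype.sum_option (fun x : OnePoint (ZMod p) =>
      (x.elim ((⇑G ∣[(2 : ℤ)] s) ∣[(2 : ℤ)] heckeDiagMatrix p)
          (fun j => ⇑G ∣[(2 : ℤ)] heckeMatrix p j.val)))).symm
    congr 1
    show _ = (⇑G ∣[(2 : ℤ)] s) ∣[(2 : ℤ)] heckeDiagMatrix p
    rw [hG s (Gamma0_sq_le M hs), hsp, ModularForm.smul_slash, σ_heckeDiagMatrix,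
      ContinuousAlgEquiv.refl_apply]
  set Ψ : ℍ → ℂ := fun z => ∑ x, Φ (repY p s x • z) with hΨ
  have hΨd : ∀ τ : ℍ, HasDerivAt (Ψ ∘ ofComplex) (G' τ) τ := by
    intro τ
    have h1 := HasDerivAt.fun_sum (u := Finset.univ) (fun x _ => hd x τ)
    rw [hsum, Finset.sum_apply]
    refine h1.congr_of_eventuallyEq (Eventually.of_forall fun w => ?_)
    simp [hΨ]
  obtain ⟨c, hc⟩ := S21.exists_const_of_hasDerivAt_zero (G := fun z => prim ⇑G' z - Ψ z)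
    (fun τ => by
      have h2 := (hasDerivAt_prim G' τ).sub (hΨd τ)
      rw [sub_self] at h2
      exact h2)
  have hper : per ⇑G' (γ : SL(2, ℤ)) =
      Ψ ((γ : SL(2, ℤ)) • UpperHalfPlane.I) - Ψ UpperHalfPlane.I := by
    have h1 := hc ((γ : SL(2, ℤ)) • UpperHalfPlane.I)
    have h2 := hc UpperHalfPlane.I
    rw [per]
    linear_combination h1 - h2
  rw [hper]
  set z : ℍ := UpperHalfPlane.I
  have h1 : ∀ x, Φ (repY p s x • ((γ : SL(2, ℤ)) • z)) =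
      per ⇑G (d x : SL(2, ℤ)) + Φ (repY p s (σ x) • z) := by
    intro x
    have e1 : repY p s x • ((γ : SL(2, ℤ)) • z) = (d x : SL(2, ℤ)) • (repY p s (σ x) • z) := by
      show repY p s x • (mapGL ℝ (γ : SL(2, ℤ)) • z) =
        mapGL ℝ (d x : SL(2, ℤ)) • (repY p s (σ x) • z)
      rw [← mul_smul, h x, mul_smul]
    rw [e1, ← prim_smul_sub G (d x) (slash_eq_of_mem_GY hG hψ (d x).2) (repY p s (σ x) • z)]
    ring
  simp only [hΨ, h1, Finset.sum_add_distrib]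
  rw [Equiv.sum_comp σ (fun x => Φ (repY p s x • z))]
  ring

end Fermat.Agent.S48.ModL.EC
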