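import Fermat.Agent.S48.ModL.EC.Abs
import Fermat.Agent.S48.ModL.EC.Inj
import Fermat.Agent.S48.ModL.EC.Transfer
import Fermat.Agent.S48.ModL.EC.EisOmega
import Fermat.Agent.S48.ModL.EC.Form
import Fermat.Agent.S48.ModL.EC.Line
import Fermat.Agent.S48.Forms.Neb
import Fermat.Agent.S48.Forms.Coeff

/-!
# S48 / MODL / EC / Main : the interface `EigenCharY` (owner helper72)
-/

set_option autoImplicit false

open UpperHalfPlane hiding I
open Function CongruenceSubgroup ModularForm ModularFormClass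
open scoped Manifold MatrixGroups ModularForm
open Matrix.SpecialLinearGroup (mapGL)
open P2MW.S_ModularForm_heckeT_slash_eq_self_of_mem_Gamma0.ModularForm.HeckeSlashInvariance

namespace Fermat.Agent.S48.ModL.EC

noncomputable section

variable {M : ℕ} [NeZero M] (ψ : DirichletCharacter ℂ M) (hψ : ψ (-1) = 1)

/-- the period homomorphism of `GY M`. -/
def perY : Additive (GY M) →+ (charSub M 2 ψ →+ ℂ) where
  toFun γ :=
    { toFun := fun G => per ⇑G.1 ((Additive.toMul γ : GY M) : SL(2, ℤ))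
      map_zero' := by
        have := per_smul (0 : ℂ) (0 : CuspForm (Gamma1 M) 2) ((Additive.toMul γ : GY M) : SL(2, ℤ))
        rw [zero_smul, zero_mul] at this
        exact this
      map_add' := fun G G' => per_add G.1 G'.1 _ }
  map_zero' := by
    ext G
    exact per_one G.1
  map_add' γ δ := by
    ext G
    exact per_mul G.1 _ _ (slash_eq_of_mem_GY G.2 hψ (Additive.toMul γ : GY M).2)

theorem perY_apply (γ : GY M) (G : charSub M 2 ψ) :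
    perY ψ hψ (Additive.ofMul γ) G = per ⇑G.1 (γ : SL(2, ℤ)) := rfl

theorem perY_eq_zero_of_trace (γ : GY M)
    (h : |(γ : SL(2, ℤ)) 0 0 + (γ : SL(2, ℤ)) 1 1| ≤ 2) : perY ψ hψ (Additive.ofMul γ) = 0 := by
  ext G
  exact per_eq_zero_of_trace G.1 _ (slash_eq_of_mem_GY G.2 hψ γ.2) h

theorem perY_conj (s : SL(2, ℤ)) (hs : s ∈ Gamma0 (M ^ 2)) (γ γ' : GY M)
    (h : (γ' : SL(2, ℤ)) = s * γ * s⁻¹) (G : charSub M 2 ψ) :
    perY ψ hψ (Additive.ofMul γ') G =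
      perY ψ hψ (Additive.ofMul γ) (ψ ((s 1 1 : ℤ) : ZMod M) • G) := by
  rw [perY_apply, perY_apply, h]
  rw [per_conj G.1 s γ _ (G.2 s (Gamma0_sq_le M hs)) (slash_eq_of_mem_GY G.2 hψ γ.2)]
  exact (per_smul _ G.1 _).symm

theorem perY_Tp {p : ℕ} (hp : p.Prime) (hpM : ¬ p ∣ M) (s : SL(2, ℤ)) (hs : s ∈ Gamma0 (M ^ 2))
    (hsp : ((s 1 1 : ℤ) : ZMod M) = p) (γ : GY M) (σ : Equiv.Perm (OnePoint (ZMod p)))
    (d : OnePoint (ZMod p) → GY M)
    (h : ∀ x, repY p s x * mapGL ℝ (γ : SL(2, ℤ)) = mapGL ℝ (d x : SL(2, ℤ)) * repY p s (σ x))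
    (G : charSub M 2 ψ) :
    haveI : NeZero p := ⟨hp.ne_zero⟩
    perY ψ hψ (Additive.ofMul γ) (Tp ψ p G) = ∑ x, perY ψ hψ (Additive.ofMul (d x)) G :=
  per_TpFn hψ G.1 (Tp ψ p G).1 G.2 hp (coe_Tp ψ hp hpM G) s hs hsp γ σ d h

/-- the index set of the operators. -/
abbrev Idx (M : ℕ) : Type := {p : ℕ // p.Prime ∧ ¬ p ∣ M}

/-- the operators: `T_p` and `⟨p⟩ = ψ p`. -/
def opT : Idx M ⊕ Idx M → (charSub M 2 ψ →+ charSub M 2 ψ)
  | Sum.inl p => (Tp ψ p.1).toAddMonoidHom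
  | Sum.inr p => ((ψ (p.1 : ZMod M)) • (LinearMap.id : charSub M 2 ψ →ₗ[ℂ] charSub M 2 ψ)).toAddMonoidHom

theorem opT_comm (i j : Idx M ⊕ Idx M) : (opT ψ i).comp (opT ψ j) = (opT ψ j).comp (opT ψ i) := by
  ext1 G
  rcases i with p | p <;> rcases j with q | q
  · exact Tp_comm ψ p.1 q.1 G
  · exact (Tp ψ p.1).map_smul _ G
  · exact ((Tp ψ q.1).map_smul _ G).symm
  · exact smul_comm (ψ (p.1 : ZMod M)) (ψ (q.1 : ZMod M)) G

include hψ in
theorem eigenCharY_aux (ℓ : ℕ) [Fact ℓ.Prime] {k : Type} [Field k] [CharP k ℓ] (t dd e : ℕ → k)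
    (E : AddSubgroup (charSub M 2 ψ)) (s : E →+ k) (hs : s ≠ 0)
    (hT : ∀ p : ℕ, p.Prime → ¬ p ∣ M → ∀ G : E,
      ∃ h : Tp ψ p (G : charSub M 2 ψ) ∈ E, s ⟨_, h⟩ = t p * s G)
    (hD : ∀ p : ℕ, p.Prime → ¬ p ∣ M → ∀ G : E,
      ∃ h : ψ (p : ZMod M) • (G : charSub M 2 ψ) ∈ E, s ⟨_, h⟩ = dd p * s G)
    (hpe : ∀ p : ℕ, p.Prime → ¬ p ∣ M → (p : k) * dd p = e p) :
    EigenCharY M t e := by
  classical
  set P := perY ψ hψ with hP
  have hM2 : NeZero (M ^ 2) := ⟨pow_ne_zero _ (NeZero.ne M)⟩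
  have hfg : P.range.FG := by
    have h1 : AddGroup.FG (Additive (GY M)) := GroupFG.iff_add_fg.mp fg_GY
    exact (AddGroup.fg_iff_addSubgroup_fg _).mp (AddGroup.fg_range P)
  have hsep : ∀ G : charSub M 2 ψ, (∀ l ∈ P.range, l G = 0) → G = 0 := by
    intro G hG
    apply Subtype.ext
    refine eq_zero_of_per G.1 (M ^ 2)
      (fun γ hγ => slash_eq_of_mem_GY G.2 hψ (Gamma_sq_le_GY M hγ)) (fun γ hγ => ?_)
    exact hG _ ⟨Additive.ofMul ⟨γ, Gamma_sq_le_GY M hγ⟩, rfl⟩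
  have hcop : ∀ p : Idx M, Nat.Coprime p.1 M := fun p =>
    (Nat.Prime.coprime_iff_not_dvd p.2.1).2 p.2.2
  have hstab : ∀ i, ∀ l ∈ P.range, l.comp (opT ψ i) ∈ P.range := by
    rintro i _ ⟨γ, rfl⟩
    obtain ⟨γ, rfl⟩ := Additive.ofMul.surjective γ
    rcases i with p | p
    · obtain ⟨s₀, hs₀, hs₀p⟩ := exists_diamond_rep (M := M) p.1 (hcop p)
      obtain ⟨σ, d, hd⟩ := exists_transferY p.2.1 p.2.2 s₀ hs₀ hs₀p γ
      have : NeZero p.1 := ⟨p.2.1.ne_zero⟩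
      have : (P (Additive.ofMul γ)).comp (opT ψ (Sum.inl p)) = ∑ x, P (Additive.ofMul (d x)) := by
        ext G
        rw [AddMonoidHom.finsetSum_apply]
        exact perY_Tp ψ hψ p.2.1 p.2.2 s₀ hs₀ hs₀p γ σ d hd G
      rw [this]
      exact sum_mem fun x _ => ⟨_, rfl⟩
    · obtain ⟨s₀, hs₀, hs₀p⟩ := exists_diamond_rep (M := M) p.1 (hcop p)
      refine ⟨Additive.ofMul ⟨s₀ * γ * s₀⁻¹, conj_mem_GY hs₀ γ.2⟩, ?_⟩
      ext G
      have := perY_conj ψ hψ s₀ hs₀ γ ⟨s₀ * γ * s₀⁻¹, conj_mem_GY hs₀ γ.2⟩ rfl G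
      rw [hs₀p] at this
      exact this
  obtain ⟨χ, hχ0, hχ⟩ := exists_functional_of_line ℓ P.range hfg hsep (opT ψ) (opT_comm ψ) hstab
    E s hs (Sum.elim (fun p => t p.1) (fun p => dd p.1)) (by
      rintro (p | p) G
      · exact hT p.1 p.2.1 p.2.2 G
      · exact hD p.1 p.2.1 p.2.2 G)
  refine ⟨χ.comp P.rangeRestrict, ?_, ?_, ?_⟩
  · intro h0
    apply hχ0
    ext ⟨_, γ, rfl⟩
    exact DFunLike.congr_fun h0 γ
  · intro γ hγ
    have : P.rangeRestrict (Additive.ofMul γ) = 0 :=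
      Subtype.ext (perY_eq_zero_of_trace ψ hψ γ hγ)
    rw [AddMonoidHom.comp_apply, this, map_zero]
  · intro p hp hpM s₀ hs₀ hs₀p
    refine ⟨fun γ γ' hγ' => ?_, ?_⟩
    · have h1 := hχ (Sum.inr ⟨p, hp, hpM⟩) (P.rangeRestrict (Additive.ofMul γ))
        (P.rangeRestrict (Additive.ofMul γ')) (by
          ext G
          have := perY_conj ψ hψ s₀ hs₀ γ γ' hγ' G
          rw [hs₀p] at this
          exact this.symm)
      simp only [AddMonoidHom.comp_apply, Sum.elim_inr] at h1 ⊢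
      rw [h1, ← mul_assoc, hpe p hp hpM]
    · intro γ σ d hd
      have : NeZero p := ⟨hp.ne_zero⟩
      have h1 := hχ (Sum.inl ⟨p, hp, hpM⟩) (P.rangeRestrict (Additive.ofMul γ))
        (∑ x, P.rangeRestrict (Additive.ofMul (d x))) (by
          ext G
          rw [AddSubgroup.val_finsetSum, AddMonoidHom.finsetSum_apply]
          exact perY_Tp ψ hψ hp hpM s₀ hs₀ hs₀p γ σ d hd G)
      simp only [AddMonoidHom.comp_apply, Sum.elim_inl] at h1 ⊢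
      rw [← h1, map_sum]

end

/-- **[EC]** : the eigen-character of `GY (N * c * ℓ)` attached to a weight one eigenform and a
reduction map `φ` in odd characteristic `ℓ`. -/
theorem eigenCharY {N : ℕ} [NeZero N] {ε : DirichletCharacter ℂ N} {f : CuspForm (Gamma1 N) 1}
    (h : Eigen N ε f) (a e : ℕ → OO)
    (ha : ∀ p : ℕ, p.Prime → ¬ p ∣ N → (a p : ℂ) = qCoeff f p)
    (he : ∀ p : ℕ, (e p : ℂ) = ε (p : ZMod N)) (c : ℕ) (hc : c ≠ 0)
    (ℓ : ℕ) (hℓ : ℓ.Prime) (hℓ2 : ℓ ≠ 2) (k : Type) [Field k] (φ : OO →+* k) (hφ : (ℓ : k) = 0) :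
    EigenCharY (N * c * ℓ) (fun p => φ (a p)) (fun p => φ (e p)) := by
  have : Fact ℓ.Prime := ⟨hℓ⟩
  have : NeZero ℓ := ⟨hℓ.ne_zero⟩
  have : CharP k ℓ := (CharP.charP_iff_prime_eq_zero hℓ).mpr hφ
  have : NeZero (N * c * ℓ) := ⟨mul_ne_zero (mul_ne_zero (NeZero.ne N) hc) hℓ.ne_zero⟩
  have hN : N ∣ N * c * ℓ := ⟨c * ℓ, by ring⟩
  have hL : ℓ ∣ N * c * ℓ := ⟨N * c, by ring⟩
  obtain ⟨ω, w, hw, hwφ⟩ := exists_teich ℓ hℓ φ hφ
  obtain ⟨g, b, hg, hgb, hb0, hb⟩ := exists_eisOmega ℓ hℓ hℓ2 φ hφ ω w hw hwφ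
  obtain ⟨F, hF, hFq⟩ := exists_mul_form hN hL ε ω⁻¹ f g h.hasChar hg
  set ψ : DirichletCharacter ℂ (N * c * ℓ) :=
    DirichletCharacter.changeLevel hN ε * DirichletCharacter.changeLevel hL ω⁻¹ with hψdef
  -- `F ≠ 0`, so `ψ` is even
  have hF1 : qCoeff F 1 = b 0 := by
    rw [hFq 1]
    have : Finset.HasAntidiagonal.antidiagonal 1 = {((0 : ℕ), (1 : ℕ)), ((1 : ℕ), (0 : ℕ))} := by
      decide
    rw [this, Finset.sum_pair (by decide)]
    simp only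
    rw [qCoeff_zero f, h.one, zero_mul, zero_add, one_mul, hgb]
  have hb0' : (b 0 : ℂ) ≠ 0 := by
    intro h0
    apply hb0
    have : b 0 = 0 := Subtype.ext h0
    rw [this, map_zero]
  have hψ : ψ (-1) = 1 := by
    by_contra hne
    have h0 : (⇑F : ℍ → ℂ) = 0 := eq_zero_of_hasChar_of_ne hF (by simpa using hne)
    have h1 : F = 0 := DFunLike.coe_injective (h0.trans FunLike.coe_zero.symm)
    apply hb0'
    rw [← hF1, h1, ← coeffL_apply, map_zero]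
  obtain ⟨wψ, hwψ⟩ := exists_OO_of_dirichlet ψ
  have hpN : ∀ p : ℕ, ¬ p ∣ N * c * ℓ → ¬ p ∣ N := fun p hp h' => hp (h'.trans hN)
  -- `ψ p * ω p = ε p`
  have hψp : ∀ p : ℕ, p.Prime → ¬ p ∣ N * c * ℓ →
      ψ (p : ZMod (N * c * ℓ)) * ω (p : ZMod ℓ) = ε (p : ZMod N) := by
    intro p hp hpM
    have hcop : IsCoprime (p : ℤ) ((N * c * ℓ : ℕ) : ℤ) :=
      Nat.isCoprime_iff_coprime.mpr ((Nat.Prime.coprime_iff_not_dvd hp).2 hpM)
    have h1 := DirichletCharacter.changeLevel_eq_cast_of_dvd' ε hN hcop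
    have h2 := DirichletCharacter.changeLevel_eq_cast_of_dvd' ω⁻¹ hL hcop
    push_cast at h1 h2
    have hu : IsUnit ((p : ℕ) : ZMod ℓ) :=
      (ZMod.isUnit_iff_coprime p ℓ).2 ((Nat.Prime.coprime_iff_not_dvd hp).2 fun h' => hpM (h'.trans hL))
    have h3 : ω⁻¹ (p : ZMod ℓ) * ω (p : ZMod ℓ) = 1 := by
      rw [← MulChar.mul_apply, inv_mul_cancel, MulChar.one_apply hu]
    rw [hψdef, MulChar.mul_apply, h1, h2, mul_assoc, h3, mul_one]
  have hpe : ∀ p : ℕ, p.Prime → ¬ p ∣ N * c * ℓ →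
      (p : k) * φ (wψ (p : ZMod (N * c * ℓ))) = φ (e p) := by
    intro p hp hpM
    have h1 : wψ (p : ZMod (N * c * ℓ)) * w (p : ZMod ℓ) = e p := by
      apply Subtype.ext
      push_cast
      rw [hwψ, hw, he, hψp p hp hpM]
    have h2 : φ (w (p : ZMod ℓ)) = (p : k) := by
      rw [hwφ, ZMod.val_natCast]
      conv_rhs => rw [← Nat.mod_add_div p ℓ]
      push_cast
      rw [hφ, zero_mul, add_zero]
    rw [← h1, map_mul, h2, mul_comm]
  obtain ⟨E, s, hs, hT, hD⟩ := exists_line ψ (fun p => wψ (p : ZMod (N * c * ℓ)))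
    (fun p => hwψ _) ℓ hℓ φ hφ (fun n => qCoeff f n) (exists_fg_coeff N f) h.one a e
    (fun p hp hpM n => by
      rw [he, ha p hp (hpN p hpM)]
      exact h.hecke p hp (hpN p hpM) n)
    hpe ⟨F, hF⟩ b (fun n => by
      rw [hFq n]
      exact Finset.sum_congr rfl fun ij _ => by rw [hgb])
    hb0 hb
  exact eigenCharY_aux ψ hψ ℓ (fun p => φ (a p)) (fun p => φ (wψ (p : ZMod (N * c * ℓ))))
    (fun p => φ (e p)) E s hs hT
    (fun p _ _ G => by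
      have := hD (wψ (p : ZMod (N * c * ℓ))) G
      rw [hwψ] at this
      exact this)
    hpe

end Fermat.Agent.S48.ModL.EC
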