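import Mathlib
import Fermat.Agent.GAL.EigenChar.Alg

/-!
# S48 / MODL / EC / Abs  (WP [EC-ABS], pure algebra)

"Deligne–Serre lifting without lifting": a system of eigenvalues `lam : I → k` (char `k = ℓ`)
which occurs on an *eigenline modulo `ℓ`* `(E, s)` of a group `V` with commuting operators `T i`
also occurs in `Hom(Λ, k)`, for every finitely generated `T`-stable group `Λ` of functionals
separating the points of `V`.

## Proof
* `𝒜 := Algebra.adjoin ℤ (Set.range T') ⊆ Module.End ℤ V` (or `AddMonoid.End V`), a commutative ring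
  by `hcomm` (`Algebra.adjoinCommRingOfComm`).
* `𝒜` acts on `Λ` by `A • l = l.comp A` (stable: `hstab` + `Algebra.adjoin_induction`), faithfully by
  `hsep`.  So `𝒜 ↪ End_ℤ(Λ)`, which is a f.g. `ℤ`-module as `Λ` is; hence `Module.Finite ℤ 𝒜`
  (`ℤ` noetherian) and `Module.Finite 𝒜 Λ`.
* `θ : 𝒜 →+* k`: the set of `A` such that `∃ t, ∀ G : E, ∃ h : A G ∈ E, s ⟨A G, h⟩ = t * s G` is a
  subring containing the `T i`; `t` is unique as `s ≠ 0`; `θ A := t`.
* `GAL.EigenChar.isMaximal_ker_of_finite ℓ θ` and `GAL.EigenChar.exists_eigen_functional θ _ faithful`.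
-/

set_option autoImplicit false

namespace Fermat.Agent.S48.ModL.EC

/-- abstract form: a commutative ring `R` acting on `V` (through `α`) and on `k` (through `θ`). -/
theorem exists_functional_of_ring {V B k R : Type*} [AddCommGroup V] [AddCommGroup B] [Field k]
    [CommRing R] (ℓ : ℕ) [Fact ℓ.Prime] [CharP k ℓ]
    (Λ : AddSubgroup (V →+ B)) (hfg : Λ.FG)
    (hsep : ∀ G : V, (∀ l ∈ Λ, l G = 0) → G = 0)
    (α : R →+* AddMonoid.End V) (θ : R →+* k)
    (hstab : ∀ r, ∀ l ∈ Λ, l.comp (α r) ∈ Λ) (hfaith : ∀ r, α r = 0 → r = 0) :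
    ∃ χ : Λ →+ k, χ ≠ 0 ∧
      ∀ r (l l' : Λ), (l : V →+ B).comp (α r) = (l' : V →+ B) → χ l' = θ r * χ l := by
  letI : Module R Λ :=
    { smul := fun r l => ⟨(l : V →+ B).comp (α r), hstab r l l.2⟩
      one_smul := fun l => Subtype.ext (by
        show (l : V →+ B).comp (α 1) = l
        rw [map_one]; rfl)
      mul_smul := fun a b l => Subtype.ext (by
        show (l : V →+ B).comp (α (a * b)) = ((l : V →+ B).comp (α b)).comp (α a)
        rw [mul_comm a b, map_mul]; rfl)
      smul_zero := fun r => Subtype.ext (by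
        show (0 : V →+ B).comp (α r) = 0
        rfl)
      smul_add := fun r l l' => Subtype.ext (by
        show ((l : V →+ B) + (l' : V →+ B)).comp (α r) =
          (l : V →+ B).comp (α r) + (l' : V →+ B).comp (α r)
        rfl)
      add_smul := fun a b l => Subtype.ext (by
        show (l : V →+ B).comp (α (a + b)) = (l : V →+ B).comp (α a) + (l : V →+ B).comp (α b)
        rw [map_add]
        ext G
        exact map_add (l : V →+ B) _ _)
      zero_smul := fun l => Subtype.ext (by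
        show (l : V →+ B).comp (α 0) = 0
        rw [map_zero]
        ext G
        exact map_zero (l : V →+ B)) }
  have hsmul : ∀ (r : R) (l : Λ), ((r • l : Λ) : V →+ B) = (l : V →+ B).comp (α r) :=
    fun _ _ => rfl
  have hfaith' : ∀ r : R, (∀ l : Λ, r • l = 0) → r = 0 := by
    intro r hr
    apply hfaith
    ext G
    apply hsep
    intro l hl
    have := congrArg (fun x : Λ => (x : V →+ B) G) (hr ⟨l, hl⟩)
    exact this
  have hfinΛ : Module.Finite ℤ Λ :=
    Module.Finite.iff_addGroup_fg.2 ((AddGroup.fg_iff_addSubgroup_fg Λ).2 hfg)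
  have hfinR : Module.Finite ℤ R := by
    refine Module.Finite.of_injective (Algebra.lsmul ℤ ℤ Λ : R →ₐ[ℤ] Module.End ℤ Λ).toLinearMap ?_
    intro a b hab
    rw [← sub_eq_zero]
    apply hfaith'
    intro l
    have := congrArg (fun f : Module.End ℤ Λ => f l) hab
    rw [sub_smul, sub_eq_zero]
    exact this
  have hfinRΛ : Module.Finite R Λ := Module.Finite.of_restrictScalars_finite ℤ R Λ
  obtain ⟨ψ, hψ0, hψ⟩ := Fermat.Agent.GAL.EigenChar.exists_eigen_functional θ
    (Fermat.Agent.GAL.EigenChar.isMaximal_ker_of_finite ℓ θ) hfaith'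
  refine ⟨ψ, hψ0, fun r l l' h => ?_⟩
  rw [← hψ r l]
  congr 1
  exact Subtype.ext h.symm

theorem exists_functional_of_line {V B k I : Type*} [AddCommGroup V] [AddCommGroup B] [Field k]
    (ℓ : ℕ) [Fact ℓ.Prime] [CharP k ℓ]
    (Λ : AddSubgroup (V →+ B)) (hfg : Λ.FG)
    (hsep : ∀ G : V, (∀ l ∈ Λ, l G = 0) → G = 0)
    (T : I → (V →+ V)) (hcomm : ∀ i j, (T i).comp (T j) = (T j).comp (T i))
    (hstab : ∀ i, ∀ l ∈ Λ, l.comp (T i) ∈ Λ)
    (E : AddSubgroup V) (s : E →+ k) (hs : s ≠ 0) (lam : I → k)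
    (hE : ∀ i (G : E), ∃ h : T i G ∈ E, s ⟨T i G, h⟩ = lam i * s G) :
    ∃ χ : Λ →+ k, χ ≠ 0 ∧
      ∀ i (l l' : Λ), (l : V →+ B).comp (T i) = (l' : V →+ B) → χ l' = lam i * χ l := by
  let gen : I → AddMonoid.End V × k := fun i => (T i, lam i)
  have hgc : ∀ x ∈ Set.range gen, ∀ y ∈ Set.range gen, x * y = y * x := by
    rintro _ ⟨i, rfl⟩ _ ⟨j, rfl⟩
    exact Prod.ext (hcomm i j) (mul_comm _ _)
  letI : CommRing (Subring.closure (Set.range gen)) := Subring.closureCommRingOfComm hgc
  -- stability of `Λ`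
  have P1 : ∀ a ∈ Subring.closure (Set.range gen), ∀ l ∈ Λ, l.comp (a.1 : V →+ V) ∈ Λ := by
    intro a ha
    induction ha using Subring.closure_induction with
    | mem x hx =>
      obtain ⟨i, rfl⟩ := hx
      exact hstab i
    | zero =>
      intro l _
      have : l.comp ((0 : AddMonoid.End V × k).1 : V →+ V) = 0 := by
        ext G
        exact map_zero l
      rw [this]
      exact Λ.zero_mem
    | one => exact fun l hl => hl
    | add x y _ _ hx hy =>
      intro l hl
      have : l.comp ((x + y).1 : V →+ V) = l.comp (x.1 : V →+ V) + l.comp (y.1 : V →+ V) := by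
        ext G
        exact map_add l _ _
      rw [this]
      exact Λ.add_mem (hx l hl) (hy l hl)
    | neg x _ hx =>
      intro l hl
      have : l.comp ((-x).1 : V →+ V) = - l.comp (x.1 : V →+ V) := by
        ext G
        exact map_neg l _
      rw [this]
      exact Λ.neg_mem (hx l hl)
    | mul x y _ _ hx hy =>
      intro l hl
      exact hy _ (hx l hl)
  -- the eigenline
  have P2 : ∀ a ∈ Subring.closure (Set.range gen), ∀ G : E,
      ∃ h : (a.1 : V →+ V) G ∈ E, s ⟨(a.1 : V →+ V) G, h⟩ = a.2 * s G := by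
    intro a ha
    induction ha using Subring.closure_induction with
    | mem x hx =>
      obtain ⟨i, rfl⟩ := hx
      exact hE i
    | zero =>
      intro G
      refine ⟨E.zero_mem, ?_⟩
      have : (⟨((0 : AddMonoid.End V × k).1 : V →+ V) G, E.zero_mem⟩ : E) = 0 := rfl
      rw [this, map_zero]
      exact (zero_mul _).symm
    | one =>
      intro G
      exact ⟨G.2, (one_mul _).symm⟩
    | add x y _ _ hx hy =>
      intro G
      obtain ⟨h1, e1⟩ := hx G
      obtain ⟨h2, e2⟩ := hy G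
      refine ⟨E.add_mem h1 h2, ?_⟩
      have : (⟨((x + y).1 : V →+ V) G, E.add_mem h1 h2⟩ : E) =
          ⟨(x.1 : V →+ V) G, h1⟩ + ⟨(y.1 : V →+ V) G, h2⟩ := rfl
      rw [this, map_add, e1, e2]
      exact (add_mul _ _ _).symm
    | neg x _ hx =>
      intro G
      obtain ⟨h1, e1⟩ := hx G
      refine ⟨E.neg_mem h1, ?_⟩
      have : (⟨((-x).1 : V →+ V) G, E.neg_mem h1⟩ : E) = - ⟨(x.1 : V →+ V) G, h1⟩ := rfl
      rw [this, map_neg, e1]
      exact (neg_mul _ _).symm
    | mul x y _ _ hx hy =>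
      intro G
      obtain ⟨h2, e2⟩ := hy G
      obtain ⟨h1, e1⟩ := hx ⟨_, h2⟩
      refine ⟨h1, ?_⟩
      have : (⟨((x * y).1 : V →+ V) G, h1⟩ : E) = ⟨(x.1 : V →+ V) ((y.1 : V →+ V) G), h1⟩ := rfl
      rw [this, e1, e2]
      exact (mul_assoc _ _ _).symm
  obtain ⟨G₀, hG₀⟩ : ∃ G₀ : E, s G₀ ≠ 0 := by
    by_contra hcon
    push Not at hcon
    exact hs (AddMonoidHom.ext hcon)
  obtain ⟨χ, hχ0, hχ⟩ := exists_functional_of_ring ℓ Λ hfg hsep
    ((RingHom.fst (AddMonoid.End V) k).comp (Subring.closure (Set.range gen)).subtype)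
    ((RingHom.snd (AddMonoid.End V) k).comp (Subring.closure (Set.range gen)).subtype)
    (fun r l hl => P1 r.1 r.2 l hl)
    (by
      intro r hr
      have hr1 : r.1.1 = 0 := hr
      apply Subtype.ext
      refine Prod.ext hr1 ?_
      obtain ⟨h, e⟩ := P2 r.1 r.2 G₀
      have h0 : (⟨(r.1.1 : V →+ V) G₀, h⟩ : E) = 0 := by
        apply Subtype.ext
        show (r.1.1 : V →+ V) G₀ = 0
        rw [hr1]
        rfl
      rw [h0, map_zero] at e
      exact (mul_eq_zero.1 e.symm).resolve_right hG₀)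
  exact ⟨χ, hχ0, fun i l l' h => hχ ⟨gen i, Subring.subset_closure ⟨i, rfl⟩⟩ l l' h⟩

end Fermat.Agent.S48.ModL.EC
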