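import Fermat.Agent.S48.ModL.GY
import Fermat.Agent.S48.Forms.FinDim
import Fermat.Agent.S48.Forms.Hecke

/-!
# S48 / MODL / EC : definitions (owner helper72)

Goal of the directory `EC/`: the interface `EigenCharY (N * c * ℓ) (φ ∘ a) (φ ∘ e)` of `ModL/GY.lean`
(see `EC/Main.lean`).  Everything is done with weight two cusp forms on `Γ₁(M)` with a character
`ψ` (`charSub M 2 ψ`), their primitives and their periods along `GY M`.
-/

set_option autoImplicit false

open UpperHalfPlane hiding I
open Complex Function Filter CongruenceSubgroup ModularForm ModularFormClass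
open scoped Manifold MatrixGroups ModularForm Topology

namespace Fermat.Agent.S48.ModL.EC

noncomputable section

open Classical in
/-- The primitive of `g` vanishing at `i∞` (junk value `0` if there is none). -/
def prim (g : ℍ → ℂ) : ℍ → ℂ :=
  if h : ∃ Φ : ℍ → ℂ, (∀ τ : ℍ, HasDerivAt (Φ ∘ ofComplex) (g τ) τ) ∧ Tendsto Φ atImInfty (𝓝 0)
  then h.choose else 0

/-- The period `∫_i^{γ i} g`. -/
def per (g : ℍ → ℂ) (γ : SL(2, ℤ)) : ℂ :=
  prim g (γ • UpperHalfPlane.I) - prim g UpperHalfPlane.I

/-- `T_p` in weight two on functions on which `⟨p⟩` acts by the scalar `c`. -/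
def TpFn (c : ℂ) (p : ℕ) (g : ℍ → ℂ) : ℍ → ℂ :=
  heckeU 2 p g + c • (g ∣[(2 : ℤ)] heckeDiagMatrix p)

theorem TpFn_add (c : ℂ) (p : ℕ) (g g' : ℍ → ℂ) : TpFn c p (g + g') = TpFn c p g + TpFn c p g' := by
  unfold TpFn
  rw [heckeU_add, SlashAction.add_slash, smul_add]
  abel

end

end Fermat.Agent.S48.ModL.EC
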