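import Fermat.Agent.S48.ModL.EC.Defs

/-!
# S48 / MODL / EC / Hecke  (WP [EC-HECKE]): `T_p` preserves `charSub M 2 ψ`

Pattern: `exists_heckeT` and `HeckeAux.TT_slash` in `Fermat/Agent/S48/Forms/Hecke.lean`.
Choose `γ ∈ Γ₀(M)` with `γ 1 1 ≡ p` (`exists_mem_Gamma0_of_unit` / `exists_mem_Gamma0_of_coprime`,
`Forms/Char.lean`).  Then `HeckeAux.TT 2 p γ G = TpFn (ψ p) p G` by `HeckeAux.TT_eq` and `hG γ hγ`
(+ `ModularForm.smul_slash`-type lemma for the GL-slash of a scalar multiple; `heckeDiagMatrix p` has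
positive determinant, `σ_heckeDiagMatrix`).  The proof of `exists_heckeT` constructs the cusp form with
`toFun = TT k p γ f` and computes its coefficients (copy it, keeping the function formula).
`HasChar` of the result: the computation of `TT_slash` with `g ∈ Γ₀(M)` instead of `Γ₁(M)`:
`(G ∣ rep γ x) ∣ g' = ψ(g 1 1) • G ∣ rep γ (σ x)`, since all matrices are in `Γ₀(M)` and
`w(x) g'₁₁ = g₁₁ w(σ x)` in `ZMod M`.
-/

set_option autoImplicit false

open UpperHalfPlane hiding I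
open Function CongruenceSubgroup ModularForm ModularFormClass
open scoped Manifold MatrixGroups ModularForm

namespace Fermat.Agent.S48.ModL.EC

open HeckeAux
open Matrix.SpecialLinearGroup (mapGL)
open P2MW.S_ModularForm_heckeT_slash_eq_self_of_mem_Gamma0.ModularForm.HeckeSlashInvariance

theorem smul_slash_heckeRep (k : ℤ) (p : ℕ) (x : OnePoint (ZMod p)) (c : ℂ) (F : ℍ → ℂ) :
    (c • F) ∣[k] heckeRep p x = c • (F ∣[k] heckeRep p x) := by
  induction x using OnePoint.rec with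
  | infty =>
    show (c • F) ∣[k] heckeDiagMatrix p = c • (F ∣[k] heckeDiagMatrix p)
    rw [ModularForm.smul_slash, σ_heckeDiagMatrix, ContinuousAlgEquiv.refl_apply]
  | coe j =>
    show (c • F) ∣[k] heckeMatrix p j.val = c • (F ∣[k] heckeMatrix p j.val)
    rw [ModularForm.smul_slash, σ_heckeMatrix, ContinuousAlgEquiv.refl_apply]

/-- `T_p` commutes with the diamond operators. -/
theorem TT_slash_char {M : ℕ} {k : ℤ} {p : ℕ} [Fact p.Prime] (hpM : ¬ p ∣ M)
    {ψ : DirichletCharacter ℂ M} {F : ℍ → ℂ} (hF : HasChar M k ψ F) {γ : SL(2, ℤ)}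
    (hγ : γ ∈ Gamma0 M) (hγp : ((γ 1 1 : ℤ) : ZMod M) = (p : ZMod M)) (δ : SL(2, ℤ))
    (hδ : δ ∈ Gamma0 M) :
    TT k p γ F ∣[k] (mapGL ℝ δ) = ψ ((δ 1 1 : ℤ) : ZMod M) • TT k p γ F := by
  have hp : p.Prime := Fact.out
  have hcN : (M : ℤ) ∣ δ 1 0 := (ZMod.intCast_zmod_eq_zero_iff_dvd _ _).mp (Gamma0_mem.mp hδ)
  have hunit : IsUnit ((p : ℕ) : ZMod M) :=
    (ZMod.isUnit_iff_coprime p M).2 ((Nat.Prime.coprime_iff_not_dvd hp).2 hpM)
  rw [TT, SlashAction.sum_slash, Finset.smul_sum]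
  calc ∑ x : OnePoint (ZMod p), ((F ∣[k] rep γ x) ∣[k] heckeRep p x) ∣[k] mapGL ℝ δ
      = ∑ x : OnePoint (ZMod p), ψ ((δ 1 1 : ℤ) : ZMod M) •
          ((F ∣[k] rep γ (redMatrix p δ • x)) ∣[k] heckeRep p (redMatrix p δ • x)) := by
        refine Finset.sum_congr rfl fun x _ ↦ ?_
        obtain ⟨g', hg', hmul⟩ := heckeRep_mul hpM δ hcN x
        have hg'0 : ((g' 1 0 : ℤ) : ZMod M) = 0 := (ZMod.intCast_zmod_eq_zero_iff_dvd _ _).mpr hg'
        have hg'N : g' ∈ Gamma0 M := Gamma0_mem.mpr hg'0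
        rw [← SlashAction.slash_mul, hmul, SlashAction.slash_mul, ← smul_slash_heckeRep]
        congr 1
        have e1 : (F ∣[k] rep γ x) ∣[k] mapGL ℝ g' = F ∣[k] (rep γ x * g') := by
          rw [SlashAction.slash_mul]; rfl
        rw [e1, hF _ (mul_mem (rep_mem hγ x) hg'N), hF _ (rep_mem hγ _), smul_smul, ← map_mul]
        congr 2
        rw [mul_apply_one_one (rep_mem hγ x), rep_apply hγp, rep_apply hγp]
        have hrel := congrArg (Int.cast : ℤ → ZMod M) (entry_rel hp.ne_zero δ g' x _ hmul)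
        push_cast at hrel
        rw [hg'0, zero_mul, zero_add] at hrel
        have h1 := congrArg (Int.cast : ℤ → ZMod M) (w_mul_W x)
        have h2 := congrArg (Int.cast : ℤ → ZMod M) (w_mul_W (redMatrix p δ • x))
        push_cast at h1 h2
        refine hunit.mul_right_cancel ?_
        linear_combination (-(w p x : ZMod M) * ((g' 1 1 : ℤ) : ZMod M)) * h2
          - (w p x : ZMod M) * (w p (redMatrix p δ • x) : ZMod M) * hrel
          + (w p (redMatrix p δ • x) : ZMod M) * ((δ 1 1 : ℤ) : ZMod M) * h1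
    _ = ∑ x : OnePoint (ZMod p), ψ ((δ 1 1 : ℤ) : ZMod M) •
          ((F ∣[k] rep γ x) ∣[k] heckeRep p x) :=
        Equiv.sum_comp (MulAction.toPerm (redMatrix p δ))
          (fun x ↦ ψ ((δ 1 1 : ℤ) : ZMod M) • ((F ∣[k] rep γ x) ∣[k] heckeRep p x))

theorem exists_Tp {M : ℕ} [NeZero M] (ψ : DirichletCharacter ℂ M) {p : ℕ} (hp : p.Prime)
    (hpM : ¬ p ∣ M) (G : CuspForm (Gamma1 M) 2) (hG : HasChar M 2 ψ G) :
    ∃ G' : CuspForm (Gamma1 M) 2, HasChar M 2 ψ G' ∧ ⇑G' = TpFn (ψ (p : ZMod M)) p ⇑G ∧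
      ∀ n : ℕ, qCoeff G' n =
        qCoeff G (p * n) + (p : ℂ) * ψ (p : ZMod M) * (if p ∣ n then qCoeff G (n / p) else 0) := by
  have : Fact p.Prime := ⟨hp⟩
  have hunit : IsUnit ((p : ℕ) : ZMod M) :=
    (ZMod.isUnit_iff_coprime p M).2 ((Nat.Prime.coprime_iff_not_dvd hp).2 hpM)
  obtain ⟨γ, hγ, hγp'⟩ := exists_mem_Gamma0_of_unit hunit.unit
  have hγp : ((γ 1 1 : ℤ) : ZMod M) = (p : ZMod M) := hγp'
  set c : ℂ := ψ (p : ZMod M) with hc
  have hGγ : (⇑G : ℍ → ℂ) ∣[(2 : ℤ)] γ = c • ⇑G := by rw [hG γ hγ, hγp]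
  have hTp : TT 2 p γ G = TpFn c p ⇑G := by
    rw [TT_eq, hGγ, TpFn, ModularForm.smul_slash, σ_heckeDiagMatrix,
      ContinuousAlgEquiv.refl_apply]
  have e1 : TT 2 p γ G = heckeU 2 p ⇑(G - c • G) + heckeT 2 p ⇑(c • G) := by
    rw [TT_eq, hGγ, heckeT_eq_heckeU_add, FunLike.coe_sub, heckeU_sub, FunLike.coe_smul]
    abel
  have hΓ : (1 : ℝ) ∈ (Gamma1 M : Subgroup (GL (Fin 2) ℝ)).strictPeriods := by
    simp [strictPeriods_Gamma1]
  let g : CuspForm (Gamma1 M) 2 :=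
    { toFun := TT 2 p γ G
      slash_action_eq' := fun δ hδ => by
        obtain ⟨d, hd, rfl⟩ := hδ
        exact TT_slash hpM G hγ hγp d hd
      holo' := by
        show MDiff (TT 2 p γ G)
        rw [e1]
        exact (mdifferentiable_heckeU (G - c • G).holo' 2 p).add
          (mdifferentiable_heckeT (c • G).holo' 2 p)
      zero_at_cusps' := fun {c'} hc' => by
        show c'.IsZeroAt (TT 2 p γ G) 2
        rw [e1]
        exact (CuspFormClass.isZeroAt_heckeU (G - c • G) p hc').add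
          (CuspFormClass.isZeroAt_heckeT (c • G) p hc') }
  have hgcoe : (⇑g : ℍ → ℂ) = TT 2 p γ G := rfl
  refine ⟨g, fun δ hδ => ?_, hgcoe.trans hTp, fun n => ?_⟩
  · rw [hgcoe]
    exact TT_slash_char hpM hG hγ hγp δ hδ
  have hA : AnalyticAt ℂ (cuspFunction 1 (heckeU 2 p ⇑(G - c • G))) 0 :=
    analyticAt_cuspFunction_zero one_pos
      (periodic_heckeU_comp_ofComplex
        (SlashInvariantFormClass.periodic_comp_ofComplex (G - c • G) hΓ) 2 p)
      (mdifferentiable_heckeU (G - c • G).holo' 2 p)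
      (isBoundedAtImInfty_heckeU (bdd_at_infty (G - c • G)) 2 p)
  have hB : AnalyticAt ℂ (cuspFunction 1 (heckeT 2 p ⇑(c • G))) 0 :=
    analyticAt_cuspFunction_zero one_pos
      (periodic_heckeT_comp_ofComplex
        (SlashInvariantFormClass.periodic_comp_ofComplex (c • G) hΓ) 2 p)
      (mdifferentiable_heckeT (c • G).holo' 2 p)
      (isBoundedAtImInfty_heckeT (bdd_at_infty (c • G)) 2 p)
  have h1 : qCoeff g n = qCoeff (heckeU 2 p ⇑(G - c • G)) n + qCoeff (heckeT 2 p ⇑(c • G)) n := by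
    show (qExpansion 1 (TT 2 p γ G)).coeff n = _
    rw [e1, qExpansion_add hA hB, map_add]
    rfl
  have h2 : ∀ m, qCoeff ⇑(G - c • G) m = qCoeff G m - qCoeff (c • G) m := by
    intro m
    show (qExpansion 1 ⇑(G - c • G)).coeff m = _
    rw [FunLike.coe_sub, ModularForm.qExpansion_sub one_pos hΓ G (c • G), map_sub]
    rfl
  have h3 : ∀ m, qCoeff ⇑(c • G) m = c * qCoeff G m := by
    intro m
    show (qExpansion 1 ⇑(c • G)).coeff m = _
    rw [FunLike.coe_smul, ModularForm.qExpansion_smul one_pos hΓ c G]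
    simp [qCoeff]
  have h3' : ∀ m, qCoeff (c • (⇑G : ℍ → ℂ)) m = c * qCoeff G m := fun m => by
    rw [← FunLike.coe_smul]; exact h3 m
  rw [h1, ModularFormClass.qCoeff_heckeU (G - c • G) hΓ hp.ne_zero,
    ModularFormClass.qCoeff_heckeT (c • G) hΓ hp.ne_zero,
    coeffHeckeU_apply, coeffHeckeT_apply, h2, h3, h3, h3', mul_comm n p]
  split_ifs <;> norm_num <;> ring

end Fermat.Agent.S48.ModL.EC
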