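import Fermat.Agent.S48.ModL.EC.Hecke

/-!
# S48 / MODL / EC / Op  (WP [EC-OP]): the operators `Tp ψ p` on `charSub M 2 ψ`

The definitions are complete (helper72).  `Tp_comm` is proved via coefficients (
`eq_zero_of_qCoeff` / `coeffL` of `Forms/FinDim.lean` and `qCoeff_Tp`).
-/

set_option autoImplicit false

open UpperHalfPlane hiding I
open Function CongruenceSubgroup ModularForm ModularFormClass
open scoped Manifold MatrixGroups ModularForm

namespace Fermat.Agent.S48.ModL.EC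

noncomputable section

theorem TpFn_smul (c : ℂ) (p : ℕ) (a : ℂ) (g : ℍ → ℂ) : TpFn c p (a • g) = a • TpFn c p g := by
  unfold TpFn
  rw [heckeU_smul, ModularForm.smul_slash, σ_heckeDiagMatrix, ContinuousAlgEquiv.refl_apply,
    smul_add, smul_comm]

variable {M : ℕ} [NeZero M] (ψ : DirichletCharacter ℂ M)

/-- auxiliary: `T_p G`. -/
def TpAux {p : ℕ} (hp : p.Prime) (hpM : ¬ p ∣ M) (G : charSub M 2 ψ) : charSub M 2 ψ :=
  ⟨(exists_Tp ψ hp hpM G.1 G.2).choose, (exists_Tp ψ hp hpM G.1 G.2).choose_spec.1⟩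

theorem coe_TpAux {p : ℕ} (hp : p.Prime) (hpM : ¬ p ∣ M) (G : charSub M 2 ψ) :
    (⇑(TpAux ψ hp hpM G).1 : ℍ → ℂ) = TpFn (ψ (p : ZMod M)) p ⇑G.1 :=
  (exists_Tp ψ hp hpM G.1 G.2).choose_spec.2.1

theorem qCoeff_TpAux {p : ℕ} (hp : p.Prime) (hpM : ¬ p ∣ M) (G : charSub M 2 ψ) (n : ℕ) :
    qCoeff (TpAux ψ hp hpM G).1 n = qCoeff G.1 (p * n) +
      (p : ℂ) * ψ (p : ZMod M) * (if p ∣ n then qCoeff G.1 (n / p) else 0) :=
  (exists_Tp ψ hp hpM G.1 G.2).choose_spec.2.2 n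

open Classical in
/-- the Hecke operator `T_p` on `charSub M 2 ψ` (`0` unless `p` is a prime not dividing `M`). -/
def Tp (p : ℕ) : charSub M 2 ψ →ₗ[ℂ] charSub M 2 ψ :=
  if h : p.Prime ∧ ¬ p ∣ M then
    { toFun := TpAux ψ h.1 h.2
      map_add' := fun G G' => Subtype.ext (DFunLike.coe_injective (by
        rw [coe_TpAux]
        show TpFn _ p (⇑(G.1 + G'.1)) = ⇑((TpAux ψ h.1 h.2 G).1 + (TpAux ψ h.1 h.2 G').1)
        rw [FunLike.coe_add, FunLike.coe_add, TpFn_add, coe_TpAux, coe_TpAux]))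
      map_smul' := fun a G => Subtype.ext (DFunLike.coe_injective (by
        rw [coe_TpAux]
        show TpFn _ p (⇑(a • G.1)) = ⇑(a • (TpAux ψ h.1 h.2 G).1)
        rw [FunLike.coe_smul, FunLike.coe_smul, TpFn_smul, coe_TpAux])) }
  else 0

theorem coe_Tp {p : ℕ} (hp : p.Prime) (hpM : ¬ p ∣ M) (G : charSub M 2 ψ) :
    (⇑(Tp ψ p G).1 : ℍ → ℂ) = TpFn (ψ (p : ZMod M)) p ⇑G.1 := by
  rw [Tp, dif_pos ⟨hp, hpM⟩]
  exact coe_TpAux ψ hp hpM G

theorem qCoeff_Tp {p : ℕ} (hp : p.Prime) (hpM : ¬ p ∣ M) (G : charSub M 2 ψ) (n : ℕ) :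
    qCoeff (Tp ψ p G).1 n = qCoeff G.1 (p * n) +
      (p : ℂ) * ψ (p : ZMod M) * (if p ∣ n then qCoeff G.1 (n / p) else 0) := by
  rw [Tp, dif_pos ⟨hp, hpM⟩]
  exact qCoeff_TpAux ψ hp hpM G n

/-- the Hecke operators commute (compare coefficients; the cases where `p` or `q` is not a prime
`∤ M`, or `p = q`, are trivial). -/
theorem Tp_comm (p q : ℕ) (G : charSub M 2 ψ) : Tp ψ p (Tp ψ q G) = Tp ψ q (Tp ψ p G) := by
  by_cases hp : p.Prime ∧ ¬ p ∣ M
  swap
  · have : Tp ψ p = 0 := by rw [Tp, dif_neg hp]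
    rw [this]; simp
  by_cases hq : q.Prime ∧ ¬ q ∣ M
  swap
  · have : Tp ψ q = 0 := by rw [Tp, dif_neg hq]
    rw [this]; simp
  by_cases hpq : p = q
  · subst hpq; rfl
  have hcop : Nat.Coprime p q := (Nat.coprime_primes hp.1 hq.1).2 hpq
  apply Subtype.ext
  rw [← sub_eq_zero]
  apply eq_zero_of_qCoeff
  intro n
  rw [← coeffL_apply, map_sub, coeffL_apply, coeffL_apply, sub_eq_zero]
  rw [qCoeff_Tp ψ hp.1 hp.2, qCoeff_Tp ψ hq.1 hq.2, qCoeff_Tp ψ hq.1 hq.2,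
    qCoeff_Tp ψ hq.1 hq.2 (Tp ψ p G), qCoeff_Tp ψ hp.1 hp.2, qCoeff_Tp ψ hp.1 hp.2]
  have h1 : q ∣ p * n ↔ q ∣ n := hcop.symm.dvd_mul_left
  have h2 : p ∣ q * n ↔ p ∣ n := hcop.dvd_mul_left
  have e0 : q * (p * n) = p * (q * n) := by ring
  simp only [h1, h2, e0]
  by_cases hpn : p ∣ n <;> by_cases hqn : q ∣ n
  · obtain ⟨a, rfl⟩ := hpn
    obtain ⟨b, rfl⟩ : q ∣ a := (hcop.symm.dvd_mul_left).1 hqn
    have hp0 := hp.1.pos
    have hq0 := hq.1.pos
    have e1 : p * (q * b) / p = q * b := Nat.mul_div_cancel_left _ hp0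
    have e2 : p * (q * b) / q = p * b := by
      rw [Nat.mul_left_comm]; exact Nat.mul_div_cancel_left _ hq0
    have e3 : p * (p * (q * b)) / q = p * (p * b) := by
      rw [show p * (p * (q * b)) = q * (p * (p * b)) by ring]; exact Nat.mul_div_cancel_left _ hq0
    have e4 : q * (p * (q * b)) / p = q * (q * b) := by
      rw [show q * (p * (q * b)) = p * (q * (q * b)) by ring]; exact Nat.mul_div_cancel_left _ hp0
    have e5 : q * b / q = b := Nat.mul_div_cancel_left _ hq0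
    have e6 : p * b / p = b := Nat.mul_div_cancel_left _ hp0
    simp only [e1, e2, e3, e4, e5, e6, dvd_mul_right, dvd_mul_of_dvd_right, if_true]
    ring
  · obtain ⟨a, rfl⟩ := hpn
    have hqa : ¬ q ∣ a := fun h => hqn (Dvd.dvd.mul_left h p)
    have hp0 := hp.1.pos
    have e1 : p * a / p = a := Nat.mul_div_cancel_left _ hp0
    have e4 : q * (p * a) / p = q * a := by
      rw [show q * (p * a) = p * (q * a) by ring]; exact Nat.mul_div_cancel_left _ hp0
    simp only [e1, e4, hqn, hqa, dvd_mul_right, if_true, if_false]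
    ring
  · obtain ⟨a, rfl⟩ := hqn
    have hpa : ¬ p ∣ a := fun h => hpn (Dvd.dvd.mul_left h q)
    have hq0 := hq.1.pos
    have e1 : q * a / q = a := Nat.mul_div_cancel_left _ hq0
    have e4 : p * (q * a) / q = p * a := by
      rw [show p * (q * a) = q * (p * a) by ring]; exact Nat.mul_div_cancel_left _ hq0
    simp only [e1, e4, hpn, hpa, dvd_mul_right, if_true, if_false]
    ring
  · simp only [hpn, hqn, if_false]
    ring

end

end Fermat.Agent.S48.ModL.EC
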