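import Fermat.Agent.S48.ModL.EC.Prim
import Fermat.Agent.S21.Parabolic
import Fermat.Agent.GAL.EigenChar.Bridge

/-!
# S48 / MODL / EC / Per  (WP [EC-PER]): periods of weight two cusp forms on `Γ₁(M)`

Uses only the statements of `EC/Prim.lean`.  Citable: `S21.hasDerivAt_comp_smul`,
`S21.exists_const_of_hasDerivAt_zero`, `S21.isParabolicHom_periodHom` (for any subgroup `Γ`, e.g.
`Subgroup.zpowers γ`; `ModularCurve.Period.IsEquivariantPrimitive`),
`GAL.EigenChar.sl2_pow_twelve_of_abs_trace_le_one`.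
-/

set_option autoImplicit false

open UpperHalfPlane hiding I
open Complex Function Filter CongruenceSubgroup ModularForm ModularFormClass
open scoped Manifold MatrixGroups ModularForm Topology

namespace Fermat.Agent.S48.ModL.EC

variable {M : ℕ} [NeZero M]

/-- the difference `Φ(γ z) - Φ(z)` does not depend on `z` (both sides have derivative `G`). -/
theorem prim_smul_sub (G : CuspForm (Gamma1 M) 2) (γ : SL(2, ℤ)) (hγ : ⇑G ∣[(2 : ℤ)] γ = ⇑G)
    (z : ℍ) : prim ⇑G (γ • z) - prim ⇑G z = per ⇑G γ := by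
  have h0 : ∀ τ : ℍ, HasDerivAt ((fun w : ℍ => prim ⇑G (γ • w) - prim ⇑G w) ∘ ofComplex) 0 τ := by
    intro τ
    have h1 := S21.hasDerivAt_comp_smul (hasDerivAt_prim G) γ τ
    have h2 := h1.sub (hasDerivAt_prim G τ)
    rw [hγ, sub_self] at h2
    exact h2
  obtain ⟨c, hc⟩ := S21.exists_const_of_hasDerivAt_zero h0
  rw [per, hc z]
  exact (hc UpperHalfPlane.I).symm

theorem per_one (G : CuspForm (Gamma1 M) 2) : per ⇑G 1 = 0 := by
  simp [per]

theorem per_mul (G : CuspForm (Gamma1 M) 2) (γ δ : SL(2, ℤ)) (hγ : ⇑G ∣[(2 : ℤ)] γ = ⇑G) :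
    per ⇑G (γ * δ) = per ⇑G γ + per ⇑G δ := by
  rw [← prim_smul_sub G γ hγ (δ • UpperHalfPlane.I), per, per, mul_smul]
  ring

theorem per_add (G G' : CuspForm (Gamma1 M) 2) (γ : SL(2, ℤ)) :
    per ⇑(G + G') γ = per ⇑G γ + per ⇑G' γ := by
  rw [per, per, per, prim_add]
  simp only [Pi.add_apply]
  ring

theorem per_smul (c : ℂ) (G : CuspForm (Gamma1 M) 2) (γ : SL(2, ℤ)) :
    per ⇑(c • G) γ = c * per ⇑G γ := by
  rw [per, per, prim_smul]
  simp only [Pi.smul_apply, smul_eq_mul]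
  ring

theorem per_pow (G : CuspForm (Gamma1 M) 2) (γ : SL(2, ℤ)) (hγ : ⇑G ∣[(2 : ℤ)] γ = ⇑G) (n : ℕ) :
    per ⇑G (γ ^ n) = n * per ⇑G γ := by
  induction n with
  | zero => simp [per_one]
  | succ n ih =>
    rw [pow_succ', per_mul G γ _ hγ, ih]
    push_cast
    ring

/-- `|tr γ| = 2`: parabolic or `± 1` (limits at the cusps); `|tr γ| ≤ 1`: `γ ^ 12 = 1`. -/
theorem per_eq_zero_of_trace (G : CuspForm (Gamma1 M) 2) (γ : SL(2, ℤ))
    (hγ : ⇑G ∣[(2 : ℤ)] γ = ⇑G) (htr : |γ 0 0 + γ 1 1| ≤ 2) : per ⇑G γ = 0 := by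
  by_cases h1 : |γ 0 0 + γ 1 1| ≤ 1
  · have h12 := GAL.EigenChar.sl2_pow_twelve_of_abs_trace_le_one γ h1
    have h2 := per_pow G γ hγ 12
    rw [h12, per_one] at h2
    have h3 : ((12 : ℕ) : ℂ) ≠ 0 := by norm_num
    exact (mul_eq_zero.1 h2.symm).resolve_left h3
  · have h2 : |γ 0 0 + γ 1 1| = 2 := by omega
    have h4 : (γ : Matrix (Fin 2) (Fin 2) ℤ).trace ^ 2 = 4 := by
      rw [Matrix.trace_fin_two, ← sq_abs]
      change |γ 0 0 + γ 1 1| ^ 2 = 4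
      rw [h2]
      norm_num
    obtain ⟨δ, n, hn⟩ := S21.exists_conj_smul_eq_T_zpow_smul γ h4
    obtain ⟨L, hL⟩ := exists_tendsto_prim G δ
    have h5 : ∀ w : ℍ, prim ⇑G (δ • (ModularGroup.T ^ n • w)) - prim ⇑G (δ • w) = per ⇑G γ := by
      intro w
      rw [← hn w]
      exact prim_smul_sub G γ hγ (δ • w)
    have h6 : Tendsto (fun w : ℍ => prim ⇑G (δ • (ModularGroup.T ^ n • w)) - prim ⇑G (δ • w))
        atImInfty (𝓝 (L - L)) :=
      (hL.comp (S21.tendsto_T_zpow_smul_atImInfty n)).sub hL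
    have h7 : Tendsto (fun _ : ℍ => per ⇑G γ) atImInfty (𝓝 (L - L)) := by
      simpa only [h5] using h6
    have := tendsto_nhds_unique h7 tendsto_const_nhds
    rw [sub_self] at this
    exact this.symm

/-- `Φ(s z) = c Φ(z) + const`, so `Φ(s γ w) - Φ(s w) = c (Φ(γ w) - Φ(w))`. -/
theorem per_conj (G : CuspForm (Gamma1 M) 2) (s γ : SL(2, ℤ)) (c : ℂ)
    (hs : ⇑G ∣[(2 : ℤ)] s = c • ⇑G) (hγ : ⇑G ∣[(2 : ℤ)] γ = ⇑G) :
    per ⇑G (s * γ * s⁻¹) = c * per ⇑G γ := by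
  have h0 : ∀ τ : ℍ,
      HasDerivAt ((fun w : ℍ => prim ⇑G (s • w) - c * prim ⇑G w) ∘ ofComplex) 0 τ := by
    intro τ
    have h1 := S21.hasDerivAt_comp_smul (hasDerivAt_prim G) s τ
    have h2 := h1.sub ((hasDerivAt_prim G τ).const_mul c)
    rw [hs, Pi.smul_apply, smul_eq_mul, sub_self] at h2
    exact h2
  obtain ⟨K, hK⟩ := S21.exists_const_of_hasDerivAt_zero h0
  have h3 : ∀ w : ℍ, prim ⇑G (s • w) = c * prim ⇑G w + K := fun w => by
    rw [← hK w]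
    ring
  have h4 : UpperHalfPlane.I = s • (s⁻¹ • UpperHalfPlane.I) := by
    rw [← mul_smul, mul_inv_cancel, one_smul]
  rw [← prim_smul_sub G γ hγ (s⁻¹ • UpperHalfPlane.I), per, mul_smul, mul_smul, h3]
  conv_lhs => rw [h4, h3]
  rw [← mul_smul s⁻¹ s, inv_mul_cancel, one_smul]
  ring

end Fermat.Agent.S48.ModL.EC
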