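import Fermat.Agent.S48.ModL.EC.Defs
import Fermat.Agent.S21.Prim

/-!
# S48 / MODL / EC / Prim  (WP [EC-PRIM]): primitives of weight two cusp forms on `Γ₁(M)`

Port of `Fermat/Agent/S21/Prim.lean` (`exists_hasEquivariantPrimitive`, `hasEquivariantPrimitive_unique`,
`..._add`, `..._smul`) from `Gamma0 N` to `Gamma1 M`.  Citable as they are: `S21.exists_prim`,
`S21.exists_const_of_hasDerivAt_zero`, `S21.hasDerivAt_comp_smul`, `one_mem_strictPeriods_Gamma1`
(`Forms/FinDim`), `Subgroup.IsArithmetic.exists_nat_mem_strictPeriods_conj` (Prelude).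
-/

set_option autoImplicit false

open UpperHalfPlane hiding I
open Complex Function Filter CongruenceSubgroup ModularForm ModularFormClass
open scoped Manifold MatrixGroups ModularForm Topology

namespace Fermat.Agent.S48.ModL.EC

variable {M : ℕ} [NeZero M]

theorem exists_prim_spec (G : CuspForm (Gamma1 M) 2) :
    ∃ Φ : ℍ → ℂ, (∀ τ : ℍ, HasDerivAt (Φ ∘ ofComplex) (G τ) τ) ∧ Tendsto Φ atImInfty (𝓝 0) := by
  have hper : Periodic ((⇑G) ∘ ofComplex) (1 : ℝ) :=
    SlashInvariantFormClass.periodic_comp_ofComplex G (one_mem_strictPeriods_Gamma1 M)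
  exact S21.exists_prim one_pos (CuspFormClass.holo G) hper (CuspFormClass.zero_at_infty G)

theorem prim_spec (G : CuspForm (Gamma1 M) 2) :
    (∀ τ : ℍ, HasDerivAt (prim ⇑G ∘ ofComplex) (G τ) τ) ∧ Tendsto (prim ⇑G) atImInfty (𝓝 0) := by
  have h := exists_prim_spec G
  unfold prim
  rw [dif_pos h]
  exact h.choose_spec

theorem hasDerivAt_prim (G : CuspForm (Gamma1 M) 2) (τ : ℍ) :
    HasDerivAt (prim ⇑G ∘ ofComplex) (G τ) τ :=
  (prim_spec G).1 τ

theorem tendsto_prim (G : CuspForm (Gamma1 M) 2) : Tendsto (prim ⇑G) atImInfty (𝓝 0) :=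
  (prim_spec G).2

/-- uniqueness -/
theorem prim_eq_of (G : CuspForm (Gamma1 M) 2) {Φ : ℍ → ℂ}
    (h1 : ∀ τ : ℍ, HasDerivAt (Φ ∘ ofComplex) (G τ) τ) (h2 : Tendsto Φ atImInfty (𝓝 0)) :
    prim ⇑G = Φ := by
  obtain ⟨c, hc⟩ := S21.exists_const_of_hasDerivAt_zero (G := fun z => prim ⇑G z - Φ z)
    (fun τ => by
      have h3 := (hasDerivAt_prim G τ).sub (h1 τ)
      rw [sub_self] at h3
      exact h3)
  have h3 : Tendsto (fun z : ℍ => prim ⇑G z - Φ z) atImInfty (𝓝 (0 - 0)) :=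
    (tendsto_prim G).sub h2
  have h4 : (fun z : ℍ => prim ⇑G z - Φ z) = fun _ => c := funext hc
  rw [h4, sub_zero] at h3
  have h5 : c = 0 := tendsto_nhds_unique tendsto_const_nhds h3
  funext z
  have := hc z
  rw [h5] at this
  exact sub_eq_zero.mp this

/-- limits at all cusps -/
theorem exists_tendsto_prim (G : CuspForm (Gamma1 M) 2) (δ : SL(2, ℤ)) :
    ∃ L : ℂ, Tendsto (fun w : ℍ => prim ⇑G (δ • w)) atImInfty (𝓝 L) := by
  obtain ⟨P, hP, h⟩ := Subgroup.IsArithmetic.exists_nat_mem_strictPeriods_conj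
    (Subgroup.map (Matrix.SpecialLinearGroup.mapGL ℝ) (Gamma1 M))
  have hPper : Periodic (((⇑G) ∣[(2 : ℤ)] δ) ∘ ofComplex) (P : ℝ) := by
    have h1 := h δ⁻¹
    rw [map_inv] at h1
    have := SlashInvariantFormClass.periodic_comp_ofComplex
      (CuspForm.translate G (Matrix.SpecialLinearGroup.mapGL ℝ δ)) h1
    exact this
  obtain ⟨Φ, hΦ, hΦ0⟩ := S21.exists_prim (h := (P : ℝ)) (by exact_mod_cast hP)
    (φ := (⇑G) ∣[(2 : ℤ)] δ) ((CuspFormClass.holo G).slash 2 _) hPper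
    (CuspFormClass.zero_at_infty_slash G δ)
  obtain ⟨L, hL⟩ := S21.exists_const_of_hasDerivAt_zero
    (G := fun z => prim ⇑G (δ • z) - Φ z) (fun τ => by
      have h2 := (S21.hasDerivAt_comp_smul (hasDerivAt_prim G) δ τ).sub (hΦ τ)
      rw [sub_self] at h2
      exact h2)
  refine ⟨L, ?_⟩
  have h2 : (fun w : ℍ => prim ⇑G (δ • w)) = fun w => Φ w + L := by
    funext w
    rw [← hL w]; ring
  rw [h2]
  simpa using hΦ0.add_const L

theorem prim_add (G G' : CuspForm (Gamma1 M) 2) : prim ⇑(G + G') = prim ⇑G + prim ⇑G' :=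
  prim_eq_of (G + G') (fun τ => (hasDerivAt_prim G τ).add (hasDerivAt_prim G' τ)) (by
    have h2 := (tendsto_prim G).add (tendsto_prim G')
    rw [add_zero] at h2
    exact h2)

theorem prim_smul (c : ℂ) (G : CuspForm (Gamma1 M) 2) : prim ⇑(c • G) = c • prim ⇑G :=
  prim_eq_of (c • G) (fun τ => (hasDerivAt_prim G τ).const_mul c) (by
    have h2 := (tendsto_prim G).const_mul c
    rw [mul_zero] at h2
    exact h2)

end Fermat.Agent.S48.ModL.EC
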